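import Fermat.Agent.KumG.Action
import Fermat.Agent.Cov.GoodH
import Fermat.Agent.Period.Count
import Fermat.Agent.S20
import Fermat.Agent.S21

/-!
# Ranks of the lattices of parabolic homomorphisms
-/

set_option autoImplicit false
set_option linter.unusedSectionVars false
set_option linter.style.haveILetI false

open scoped MatrixGroups
open Module ModularCurve ModularCurve.Period Fermat.Agent.KumG Fermat.Agent.RR AlgebraicCurve
  Fermat.Agent.ModPoly Fermat.Agent.Cov Fermat.Agent.RedMod Fermat.Agent.Red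

namespace Fermat.Agent.RlG

noncomputable section

section LZ

variable (Γ : Subgroup SL(2, ℤ)) [Γ.FiniteIndex]

theorem finrank_LZ : finrank ℤ (LZ Γ) = finrank ℂ (LC Γ) := by
  classical
  let b := Module.Free.chooseBasis ℤ (FQ Γ)
  let ψ : Module.Free.ChooseBasisIndex ℤ (FQ Γ) → LZ Γ := fun i =>
    ⟨unfac ((b.coord i ∘ₗ Submodule.mkQ _).toAddMonoidHom), isParabolicHom_unfac _⟩
  -- elements dual to the basis
  have hex : ∀ i, ∃ γ : Γ, (Submodule.Quotient.mk (Additive.ofMul (prQ Γ γ)) : FQ Γ) = b i := by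
    intro i
    obtain ⟨x, hx⟩ := Submodule.Quotient.mk_surjective _ (b i)
    obtain ⟨x, rfl⟩ := Additive.ofMul.surjective x
    obtain ⟨γ, rfl⟩ := prQ_surjective Γ x
    exact ⟨γ, hx⟩
  choose γ hγ using hex
  have hψ : ∀ i j, (ψ i).1 (Additive.ofMul (γ j)) = if j = i then 1 else 0 := by
    intro i j
    change b.coord i (Submodule.Quotient.mk (Additive.ofMul (prQ Γ (γ j)))) = _
    rw [hγ, Basis.coord_apply, Basis.repr_self, Finsupp.single_apply]
  -- expansion
  have hexp : ∀ φ : LZ Γ, φ = ∑ i, φ.1 (Additive.ofMul (γ i)) • ψ i := by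
    intro φ
    let u : QA Γ →ₗ[ℤ] ℤ := (fac φ.1 φ.2).toIntLinearMap
    have hu : Submodule.torsion ℤ (QA Γ) ≤ LinearMap.ker u := by
      intro x hx
      rw [Submodule.mem_torsion_iff] at hx
      obtain ⟨a, ha⟩ := hx
      rw [LinearMap.mem_ker]
      have h1 : (a : ℤ) • u x = 0 := by
        rw [← map_smul]
        have : (a : ℤ) • x = 0 := ha
        rw [this, map_zero]
      rcases smul_eq_zero.mp h1 with h | h
      · exact absurd h (nonZeroDivisors.coe_ne_zero a)
      · exact h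
    let v : FQ Γ →ₗ[ℤ] ℤ := Submodule.liftQ _ u hu
    have hv : ∀ g : Γ, φ.1 (Additive.ofMul g) =
      v (Submodule.Quotient.mk (Additive.ofMul (prQ Γ g))) := fun g => rfl
    apply Subtype.ext
    refine AddMonoidHom.ext fun g => ?_
    obtain ⟨g, rfl⟩ := Additive.ofMul.surjective g
    have h2 : (Submodule.Quotient.mk (Additive.ofMul (prQ Γ g)) : FQ Γ) =
      ∑ i, b.repr (Submodule.Quotient.mk (Additive.ofMul (prQ Γ g))) i • b i := (b.sum_repr _).symm
    rw [hv, h2, map_sum, AddSubmonoidClass.coe_finsetSum, AddMonoidHom.finsetSum_apply]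
    refine Finset.sum_congr rfl fun i _ => ?_
    rw [map_smul, hv, hγ, smul_eq_mul, mul_comm]
    rfl
  -- basis of `LZ`
  have hliZ : LinearIndependent ℤ ψ := by
    rw [Fintype.linearIndependent_iff]
    intro g hg j
    have h1 := congrArg (fun φ : LZ Γ => φ.1 (Additive.ofMul (γ j))) hg
    simp only [AddSubmonoidClass.coe_finsetSum, AddMonoidHom.finsetSum_apply] at h1
    have h2 : ∀ i, ((g i • ψ i : LZ Γ) : Additive Γ →+ ℤ) (Additive.ofMul (γ j)) =
        g i * (if j = i then 1 else 0) := fun i => by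
      rw [← hψ]; rfl
    simp only [h2] at h1
    simpa using h1
  have hspZ : ⊤ ≤ Submodule.span ℤ (Set.range ψ) := by
    intro φ _
    rw [hexp φ]
    exact Submodule.sum_mem _ fun i _ => Submodule.smul_mem _ _ (Submodule.subset_span ⟨i, rfl⟩)
  have e1 : finrank ℤ (LZ Γ) = Fintype.card (Module.Free.ChooseBasisIndex ℤ (FQ Γ)) :=
    Module.finrank_eq_card_basis (Basis.mk hliZ hspZ)
  -- basis of `LC`
  have hliC : LinearIndependent ℂ (fun i => castP Γ (ψ i)) := by
    rw [Fintype.linearIndependent_iff]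
    intro g hg j
    have h1 := congrArg (fun φ : LC Γ => φ.1 (Additive.ofMul (γ j))) hg
    simp only [AddSubmonoidClass.coe_finsetSum, AddMonoidHom.finsetSum_apply] at h1
    have h2 : ∀ i, ((g i • castP Γ (ψ i) : LC Γ) : Additive Γ →+ ℂ) (Additive.ofMul (γ j)) =
        g i * ((if j = i then 1 else 0 : ℤ) : ℂ) := fun i => by
      rw [← hψ]; rfl
    simp only [h2] at h1
    simpa using h1
  have hspC : ⊤ ≤ Submodule.span ℂ (Set.range fun i => castP Γ (ψ i)) := by
    rw [← span_castP Γ, Submodule.span_le]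
    rintro _ ⟨φ, rfl⟩
    rw [hexp φ, map_sum]
    refine Submodule.sum_mem _ fun i _ => ?_
    have : castP Γ (φ.1 (Additive.ofMul (γ i)) • ψ i) =
        ((φ.1 (Additive.ofMul (γ i)) : ℤ) : ℂ) • castP Γ (ψ i) := by
      rw [map_smul]
      exact (Int.cast_smul_eq_zsmul ℂ _ _).symm
    rw [this]
    exact Submodule.smul_mem _ _ (Submodule.subset_span ⟨i, rfl⟩)
  have e2 : finrank ℂ (LC Γ) = Fintype.card (Module.Free.ChooseBasisIndex ℤ (FQ Γ)) :=
    Module.finrank_eq_card_basis (Basis.mk hliC hspC)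
  rw [e1, e2]

end LZ

theorem card_XL (Γ : Subgroup SL(2, ℤ)) [LvlG Γ] [Γ.FiniteIndex] (m : ℕ) [NeZero m] :
    Nat.card (XL Γ m) = m ^ finrank ℤ (LZ Γ) := by
  classical
  let b := Module.finBasis ℤ (LZ Γ)
  let f : LZ Γ →+ (Fin (finrank ℤ (LZ Γ)) → ZMod m) :=
    { toFun := fun x i => (b.repr x i : ZMod m)
      map_zero' := by ext; simp
      map_add' := fun x y => by ext; simp }
  have hf : Function.Surjective f := by
    intro y
    refine ⟨∑ i, ((y i).cast : ℤ) • b i, funext fun i => ?_⟩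
    change ((b.repr (∑ i, ((y i).cast : ℤ) • b i) i : ℤ) : ZMod m) = y i
    rw [b.repr_sum_self]
    simp
  have hker : f.ker = mL Γ m := by
    ext x
    rw [AddMonoidHom.mem_ker]
    constructor
    · intro h
      have h1 : ∀ i, (m : ℤ) ∣ b.repr x i := fun i =>
        (ZMod.intCast_zmod_eq_zero_iff_dvd _ _).1 (congrFun h i)
      choose c hc using h1
      refine ⟨∑ i, c i • b i, ?_⟩
      change m • (∑ i, c i • b i) = x
      rw [Finset.smul_sum]
      conv_rhs => rw [← b.sum_repr x]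
      refine Finset.sum_congr rfl fun i _ => ?_
      rw [hc i, mul_smul]
      exact (natCast_zsmul _ _).symm
    · rintro ⟨y, rfl⟩
      funext i
      change ((b.repr (m • y) i : ℤ) : ZMod m) = 0
      rw [map_nsmul, Finsupp.smul_apply]
      simp
  have e : XL Γ m ≃ (Fin (finrank ℤ (LZ Γ)) → ZMod m) :=
    ((QuotientAddGroup.quotientAddEquivOfEq hker.symm).trans
      (QuotientAddGroup.quotientKerEquivOfSurjective f hf)).toEquiv
  rw [Nat.card_congr e, Nat.card_fun, Nat.card_zmod, Nat.card_eq_fintype_card, Fintype.card_fin]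

theorem finrank_LC_Gamma0 (N : ℕ) [NeZero N] :
    (finrank ℂ (LC (CongruenceSubgroup.Gamma0 N)) : ℚ) = 2 * genusFormula N := by
  obtain ⟨h1, h2⟩ := Fermat.Agent.S21.result N
  have h3 := Fermat.Agent.S20.result N
  have h4 : finrank ℂ (LinearMap.range (periodHomPair N)) =
      finrank ℂ (CuspForm (CongruenceSubgroup.Gamma0 N) 2) +
        finrank ℂ (CuspForm (CongruenceSubgroup.Gamma0 N) 2) := by
    haveI := Fermat.Agent.Period.finiteDimensional_cusp_two N
    rw [LinearMap.finrank_range_of_inj h1, Module.finrank_prod]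
  rw [h2] at h4
  have h5 : (finrank ℂ (LC (CongruenceSubgroup.Gamma0 N)) : ℚ) =
      (finrank ℂ (CuspForm (CongruenceSubgroup.Gamma0 N) 2) : ℚ) +
        (finrank ℂ (CuspForm (CongruenceSubgroup.Gamma0 N) 2) : ℚ) := by exact_mod_cast h4
  rw [h5, h3]; ring

theorem GH_of_index {N : ℕ} {H : Subgroup (ZMod N)ˣ} (h : H.index = 1) :
    GH N H = CongruenceSubgroup.Gamma0 N := by
  rw [Subgroup.index_eq_one] at h
  subst h
  refine le_antisymm (GH_le N _) fun γ hγ => ?_
  rw [mem_GH]
  refine ⟨hγ, ?_⟩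
  have h0 : ((γ 1 0 : ℤ) : ZMod N) = 0 := CongruenceSubgroup.Gamma0_mem.1 hγ
  have h2 := congrArg (Int.cast : ℤ → ZMod N) γ.det_coe
  rw [Matrix.det_fin_two] at h2
  push_cast at h2
  rw [h0, mul_zero, sub_zero] at h2
  exact ⟨⟨_, _, by rw [mul_comm]; exact h2, h2⟩, Subgroup.mem_top _, rfl⟩

theorem finrank_LZ_GH {K : Type*} [Field K] [Algebra ℚ K] [IsAlgClosed K] [CharZero K]
    (ι : K →+* ℂ) {N : ℕ} [NeZero N] {H : Subgroup (ZMod N)ˣ} (hH : -1 ∈ H) (h : H.index = 1)
    [LvlG (GH N H)] [FunField K (FG (GH N H) K)] :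
    finrank ℤ (LZ (GH N H)) = 2 * rrGenus K (FG (GH N H) K) := by
  haveI := funField_FF (k := K) (M := N) (by exact_mod_cast NeZero.ne N)
  have e0 : FG (GH N H) K = FF K N := FG_eq_FF ι hH h
  have e1 : rrGenus K (FG (GH N H) K) = rrGenus K (FF K N) := rrGenus_congr e0
  have e2 : finrank ℤ (LZ (GH N H)) = finrank ℤ (LZ (CongruenceSubgroup.Gamma0 N)) := by
    rw [GH_of_index h]
  have e3 := rrGenus_K (K := K) (N := N) ι
  have e4 := finrank_LC_Gamma0 N
  rw [← finrank_LZ, ← e3] at e4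
  rw [e1, e2]
  exact_mod_cast e4

end

end Fermat.Agent.RlG
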