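import Fermat.Agent.RlG.ModC
import Fermat.Agent.RlG.Rank

/-!
# Counting classes
-/

set_option autoImplicit false
set_option linter.unusedSectionVars false
set_option linter.style.haveILetI false

open scoped MatrixGroups
open Module Fermat.Agent.KumG Fermat.Agent.Cov ModularCurve Fermat.Agent.ModPoly Fermat.Agent.GamH
  Polynomial IntermediateField Fermat.Agent.RedMod Fermat.Agent.Red AlgebraicCurve Fermat.Agent.RR
  Fermat.Agent.SSH Fermat.Agent.SemiSt Fermat.Agent.Nod Fermat.Agent.Curve Fermat.Agent.E2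
  Fermat.Agent.E2K

namespace Fermat.Agent.RlG

noncomputable section

section Abs

theorem fib_card {V Z : Type*} [AddCommGroup V] {X Y : AddSubgroup V} [Finite Z] [Finite Y]
    (Φ : X → Z) (h : ∀ x x' : X, Φ x = Φ x' → (x - x' : V) ∈ Y) :
    Finite X ∧ Nat.card X ≤ Nat.card Z * Nat.card Y ∧
      (Nat.card Z * Nat.card Y ≤ Nat.card X → Function.Surjective Φ) := by
  classical
  let s : Z → X := fun z => if hz : ∃ x, Φ x = z then hz.choose else 0
  have hs : ∀ x, Φ (s (Φ x)) = Φ x := fun x => by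
    have hz : ∃ x', Φ x' = Φ x := ⟨x, rfl⟩
    change Φ (if hz : ∃ x', Φ x' = Φ x then hz.choose else 0) = Φ x
    rw [dif_pos hz]
    exact hz.choose_spec
  let F : X → Z × Y := fun x => (Φ x, ⟨x - s (Φ x), h _ _ (hs x).symm⟩)
  have hF : Function.Injective F := by
    intro x x' hxx
    have h1 : Φ x = Φ x' := congrArg Prod.fst hxx
    have h2 : (x : V) - s (Φ x) = x' - s (Φ x') := congrArg (fun z : Z × Y => (z.2 : V)) hxx
    rw [h1] at h2
    exact Subtype.ext (sub_left_injective h2)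
  haveI : Finite X := Finite.of_injective F hF
  refine ⟨inferInstance, ?_, fun hle => ?_⟩
  · rw [← Nat.card_prod]
    exact Nat.card_le_card_of_injective F hF
  · have hb : Function.Bijective F := by
      rw [Nat.bijective_iff_injective_and_card]
      refine ⟨hF, le_antisymm (Nat.card_le_card_of_injective F hF) ?_⟩
      rwa [Nat.card_prod]
    intro z
    obtain ⟨x, hx⟩ := hb.2 (z, 0)
    exact ⟨x, congrArg Prod.fst hx⟩

theorem bern (b n : ℕ) : b ^ n * (b + n) ≤ (b + 1) ^ n * b := by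
  induction n with
  | zero => simp
  | succ n ih =>
    calc b ^ (n + 1) * (b + (n + 1)) = b ^ n * (b * (b + n + 1)) := by ring
      _ ≤ b ^ n * ((b + 1) * (b + n)) := Nat.mul_le_mul_left _ (by nlinarith)
      _ = (b + 1) * (b ^ n * (b + n)) := by ring
      _ ≤ (b + 1) * ((b + 1) ^ n * b) := Nat.mul_le_mul_left _ ih
      _ = (b + 1) ^ (n + 1) * b := by ring

theorem le_of_forall_pow {a b C : ℕ} (h : ∀ n, a ^ n ≤ C * b ^ n) : a ≤ b := by
  by_contra hcon
  push Not at hcon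
  rcases Nat.eq_zero_or_pos b with rfl | hb
  · have := h 1
    simp only [pow_one, mul_zero] at this
    omega
  have h1 := h (C * b + 1)
  have h2 := bern b (C * b + 1)
  have h3 : (b + 1) ^ (C * b + 1) ≤ a ^ (C * b + 1) := Nat.pow_le_pow_left (by omega) _
  have h4 : b ^ (C * b + 1) * (b + (C * b + 1)) ≤ b ^ (C * b + 1) * (C * b) := by
    calc b ^ (C * b + 1) * (b + (C * b + 1)) ≤ (b + 1) ^ (C * b + 1) * b := h2
      _ ≤ C * b ^ (C * b + 1) * b := Nat.mul_le_mul_right _ (h3.trans h1)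
      _ = b ^ (C * b + 1) * (C * b) := by ring
  have h5 := Nat.le_of_mul_le_mul_left h4 (pow_pos hb _)
  omega

theorem card_tors_le (m C : ℕ) [NeZero m] (hC : 0 < C) :
    Nat.card {x : ZMod m // C • x = 0} ≤ C := by
  classical
  have h := IsAddCyclic.card_nsmul_eq_zero_le (α := ZMod m) hC
  rwa [Nat.card_eq_fintype_card, Fintype.card_subtype]

end Abs

section Cnt

variable {A₀ K₀ A K k : Type*} [CommRing A₀] [IsDomain A₀] [IsDiscreteValuationRing A₀] [Field K₀]
  [CharZero K₀] [Algebra ℚ K₀]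
  [Algebra A₀ K₀] [IsFractionRing A₀ K₀] [CommRing A] [IsDomain A] [ValuationRing A]
  [Field K] [IsAlgClosed K] [CharZero K] [Algebra ℚ K] [Algebra A K] [IsFractionRing A K]
  [Field k] [IsAlgClosed k] [Algebra A k] [Algebra A₀ k] [Algebra K₀ K]
  {q M : ℕ} [hq : Fact q.Prime] [NeZero M]
  {H : Subgroup (ZMod M)ˣ} [hH : Fact ((-1 : (ZMod M)ˣ) ∈ H)] [CharP k q] [PerfectRing k q]
  [Algebra.IsAlgebraic K₀ K] (s : Set2 A₀ K₀ A K k q M H)

theorem finite_XL {Γ : Subgroup SL(2, ℤ)} [LvlG Γ] [Γ.FiniteIndex] {m : ℕ} [NeZero m] :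
    Finite (XL Γ m) := by
  apply Nat.finite_of_card_ne_zero
  rw [card_XL]
  exact pow_ne_zero _ (NeZero.ne m)

/-- the reduction of a lattice map -/
def redX {Γ : Subgroup SL(2, ℤ)} [LvlG Γ] (m m' : ℕ) [NeZero m] [NeZero m'] (h : m' ∣ m) :
    XL Γ m →+ XL Γ m' :=
  QuotientAddGroup.lift _ (mkX (Γ := Γ) (m := m')) (by
    intro x hx
    rw [mem_mL] at hx
    rw [AddMonoidHom.mem_ker, ← map_zero (mkX (Γ := Γ) (m := m')), mkX_eq_iff, redI_zero,
      ← redZ_redI h, hx]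
    ext
    simp)

theorem redX_mk {Γ : Subgroup SL(2, ℤ)} [LvlG Γ] {m m' : ℕ} [NeZero m] [NeZero m'] (h : m' ∣ m)
    (Φ : LZ Γ) : redX m m' h (mkX Φ) = mkX Φ := rfl

/-- **step of the induction** -/
theorem card_YK_mul {m m' M' : ℕ} [NeZero m] [NeZero m'] [NeZero M'] (hM : M' = m * m') :
    Nat.card (YK s M') ≤ Nat.card (YK s m') * Nat.card (YK s m) := by
  classical
  have hdvd : m' ∣ M' := ⟨m, by rw [hM, mul_comm]⟩
  haveI : Finite (XL (Gq q M H) m) := finite_XL
  haveI : Finite (XL (Gq q M H) m') := finite_XL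
  haveI : Finite (XL (Gq q M H) M') := finite_XL
  haveI : Finite (YK s m) := inferInstance
  haveI : Finite (YK s m') := inferInstance
  -- the kernel
  let N : AddSubgroup (XL (Gq q M H) M') := YK s M' ⊓ (redX M' m' hdvd).ker
  have hN : Nat.card N ≤ Nat.card (YK s m) := by
    have h1 : ∀ x : N, ∃ y : YK s m, ∃ Ψ : LZ (Gq q M H), (y : XL (Gq q M H) m) = mkX Ψ ∧
        (x : XL (Gq q M H) M') = mkX (m' • Ψ) := by
      rintro ⟨x, hx1, hx2⟩
      obtain ⟨Φ, rfl⟩ := mkX_surjective x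
      obtain ⟨Ψ, h3, h4⟩ := exists_root_YK s hM hx1 hx2
      exact ⟨⟨_, h4⟩, Ψ, rfl, congrArg mkX h3⟩
    choose y Ψ h2 h3 using h1
    refine Nat.card_le_card_of_injective y fun x x' hxx => ?_
    have h4 : (mkX (Ψ x) : XL (Gq q M H) m) = mkX (Ψ x') := by rw [← h2, ← h2, hxx]
    apply Subtype.ext
    rw [h3, h3]
    rw [← sub_eq_zero, ← map_sub, ← map_zero (mkX (Γ := Gq q M H) (m := m)), mkX_eq_iff,
      redI_zero] at h4
    obtain ⟨χ, hχ⟩ := redI_eq_zero.1 h4
    have h5 : Ψ x = Ψ x' + m • χ := by rw [← hχ]; abel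
    have e : m' • (m • (mkX χ : XL (Gq q M H) M')) = 0 := by
      rw [← mul_nsmul', mul_comm m' m, ← hM]
      exact mkX_nsmul χ
    rw [h5, map_nsmul, map_add, map_nsmul, nsmul_add, e, add_zero, map_nsmul]
  obtain ⟨-, h2, -⟩ := fib_card (X := YK s M') (Y := N)
    (Φ := fun x : YK s M' => (⟨redX M' m' hdvd x, by
      obtain ⟨x, f, hf, hv⟩ := x
      obtain ⟨Φ, rfl⟩ := mkX_surjective x
      exact ⟨f, hasCls_reduce hdvd hf, hv⟩⟩ : YK s m')) (by
    intro x x' h
    have h5 : redX M' m' hdvd (x : XL (Gq q M H) M') = redX M' m' hdvd (x' : XL (Gq q M H) M') :=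
      congrArg Subtype.val h
    have h6 : ((x : XL (Gq q M H) M') - (x' : XL (Gq q M H) M')) ∈ (redX M' m' hdvd).ker := by
      rw [AddMonoidHom.mem_ker, map_sub, h5, sub_self]
    exact ⟨(YK s M').sub_mem x.2 x'.2, h6⟩)
  exact h2.trans (Nat.mul_le_mul_left _ hN)

theorem card_YK_pow {p : ℕ} [Fact p.Prime] (n : ℕ) :
    haveI : NeZero p := ⟨(Fact.out : p.Prime).ne_zero⟩
    Nat.card (YK s (p ^ n)) ≤ Nat.card (YK s p) ^ n := by
  haveI : NeZero p := ⟨(Fact.out : p.Prime).ne_zero⟩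
  induction n with
  | zero =>
    haveI : Finite (XL (Gq q M H) (p ^ 0)) := finite_XL
    have h1 : Nat.card (YK s (p ^ 0)) ≤ Nat.card (XL (Gq q M H) (p ^ 0)) :=
      Nat.card_le_card_of_injective _ Subtype.val_injective
    rw [card_XL] at h1
    refine h1.trans ?_
    simp
  | succ n ih =>
    have h1 := card_YK_mul s (m := p) (m' := p ^ n) (M' := p ^ (n + 1)) (by rw [pow_succ, mul_comm])
    refine h1.trans ?_
    rw [pow_succ]
    exact Nat.mul_le_mul_right _ ih

variable [FunField k (FH k M H)] [FunField K (FG (GH M H) K)] [FunField K (FG (Gq q M H) K)]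

theorem exists_d (b : Fin 2 → ℤ) : ∃ z : FG (Gq q M H) K₀, z ≠ 0 ∧ ∀ j, (s.X.CC j).v z = b j := by
  letI := algA A₀ (FG (Gq q M H) K₀)
  haveI := tower_algA A₀ (FG (Gq q M H) K₀)
  letI := algA A₀ (FH k M H)
  haveI := tower_algA A₀ (FH k M H)
  exact (s.X.cm s.toSetting.sp).exists_v b

/-- **The classes with valuation zero have bounded index.** -/
theorem card_VK : ∃ C : ℕ, 0 < C ∧ ∀ (m : ℕ) [NeZero m],
    Nat.card (VK s m) ≤ C * Nat.card (YK s m) := by
  obtain ⟨C, hC, h⟩ := obs s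
  refine ⟨C, hC, fun m _ => ?_⟩
  haveI : Finite (XL (Gq q M H) m) := finite_XL
  have hm := NeZero.ne m
  choose f hf using fun x : VK s m => x.2
  have hf0 : ∀ x, f x ≠ 0 := fun x => ne_of_cls s (hf x)
  let d : FG (Gq q M H) K₀ → ℤ := fun f => (s.X.CC 0).v f - (s.X.CC 1).v f
  obtain ⟨-, h2, -⟩ := fib_card (X := VK s m) (Y := YK s m)
    (Φ := fun x => (⟨(d (f x) : ZMod m), by
      have h1 := h m hm (f x) (hf0 x) (hf x).kd.2
      rw [nsmul_eq_mul, ← Int.cast_natCast, ← Int.cast_mul, ZMod.intCast_zmod_eq_zero_iff_dvd]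
      exact h1⟩ : {x : ZMod m // C • x = 0})) (by
    intro x x' hxx
    have h1 : (d (f x) : ZMod m) = (d (f x') : ZMod m) := congrArg Subtype.val hxx
    rw [← sub_eq_zero, ← Int.cast_sub, ZMod.intCast_zmod_eq_zero_iff_dvd] at h1
    obtain ⟨t, ht⟩ := h1
    obtain ⟨z, hz0, hz⟩ := exists_d s (fun j => if j = 0 then -t else 0)
    have hc := (hf x).div (hf x')
    have hz' : emb K₀ K (Gq q M H) z ≠ 0 := by
      rwa [Ne, map_eq_zero_iff _ (emb K₀ K (Gq q M H)).injective]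
    have hc2 := hc.mul_pow hz'
    refine mem_YK_of s (f := f x * (f x')⁻¹ * z ^ m) ?_ ?_
    · rw [map_mul, map_mul, map_inv₀, map_pow]
      exact hc2
    · have n1 : (f x')⁻¹ ≠ 0 := inv_ne_zero (hf0 x')
      have n2 : f x * (f x')⁻¹ ≠ 0 := mul_ne_zero (hf0 x) n1
      have n3 : z ^ m ≠ 0 := pow_ne_zero _ hz0
      rw [Car.Comp.v_mul _ n2 n3, Car.Comp.v_mul _ (hf0 x) n1, Car.Comp.v_inv, Car.Comp.v_pow,
        Car.Comp.v_mul _ n2 n3, Car.Comp.v_mul _ (hf0 x) n1, Car.Comp.v_inv, Car.Comp.v_pow,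
        hz 0, hz 1, if_pos rfl, if_neg (by decide)]
      simp only [d] at ht
      linarith)
  exact h2.trans (Nat.mul_le_mul_right _ (card_tors_le m C hC))

end Cnt

end

end Fermat.Agent.RlG
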