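import Fermat.Agent.E2.Desc
import Fermat.Agent.Curve.Residue

/-!
# Descent of powers
-/

set_option autoImplicit false
set_option linter.unusedSectionVars false
set_option linter.style.haveILetI false

open Fermat.Agent.KumG Fermat.Agent.Cov ModularCurve Fermat.Agent.ModPoly Polynomial
  IntermediateField Fermat.Agent.RedMod Fermat.Agent.Red AlgebraicCurve Fermat.Agent.SSH
  Fermat.Agent.E2
open scoped MatrixGroups

namespace Fermat.Agent.RlG

noncomputable section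

variable {K₀ K : Type*} [Field K₀] [Field K] [Algebra K₀ K] [Algebra ℚ K₀] [Algebra ℚ K]
  {Γ : Subgroup SL(2, ℤ)} [LvlG Γ]

theorem coeff_algebraMap_mul {L : Type*} [Field L] [Algebra ℚ L] (a : L) (x : FG Γ L) (n : ℤ) :
    ((algebraMap L (FG Γ L) a * x : FG Γ L) : LaurentSeries L).coeff n =
      a * (x : LaurentSeries L).coeff n := by
  rw [MulMemClass.coe_mul]
  change (algebraMap L (LaurentSeries L) a * (x : LaurentSeries L)).coeff n = _
  rw [algebraMap_eq_C, HahnSeries.C_mul_eq_smul, HahnSeries.coeff_smul, smul_eq_mul]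

variable [Algebra.IsAlgebraic K₀ K] [IsAlgClosed K]
  (hfix : ∀ x : K, (∀ σ : K ≃ₐ[K₀] K, σ x = x) → x ∈ Set.range (algebraMap K₀ K))

include hfix in
/-- descent of powers -/
theorem desc_pow {f : FG Γ K₀} {c' : K} {h' : FG Γ K} {m : ℕ} (hm : m ≠ 0) (hc' : c' ≠ 0)
    (h0 : h' ≠ 0) (h : emb K₀ K Γ f = algebraMap K (FG Γ K) c' * h' ^ m) :
    ∃ (c : K₀) (h₀ : FG Γ K₀), c ≠ 0 ∧ h₀ ≠ 0 ∧ f = algebraMap K₀ (FG Γ K₀) c * h₀ ^ m ∧
      ∃ a : K, a ≠ 0 ∧ emb K₀ K Γ h₀ = algebraMap K (FG Γ K) a * h' := by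
  have hL0 : (h' : LaurentSeries K) ≠ 0 := fun e => h0 (Subtype.ext e)
  set n : ℤ := (h' : LaurentSeries K).order with hn
  set l : K := (h' : LaurentSeries K).coeff n with hl
  have hl0 : l ≠ 0 := by
    rw [hl, hn]
    exact fun h => hL0 (HahnSeries.coeff_order_eq_zero.1 h)
  set x : FG Γ K := algebraMap K (FG Γ K) l⁻¹ * h' with hx
  have hal : ∀ {a : K}, a ≠ 0 → algebraMap K (FG Γ K) a ≠ 0 := fun ha => by
    rw [Ne, map_eq_zero]; exact ha
  have hx0 : x ≠ 0 := mul_ne_zero (hal (inv_ne_zero hl0)) h0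
  have hxn : (x : LaurentSeries K).coeff n = 1 := by
    rw [hx, coeff_algebraMap_mul, ← hl, inv_mul_cancel₀ hl0]
  have hfx : emb K₀ K Γ f = algebraMap K (FG Γ K) (c' * l ^ m) * x ^ m := by
    rw [h, hx, mul_pow, ← map_pow, ← mul_assoc, ← map_mul, mul_assoc, ← mul_pow,
      mul_inv_cancel₀ hl0, one_pow, mul_one]
  set c := c' * l ^ m with hc
  have hc0 : c ≠ 0 := mul_ne_zero hc' (pow_ne_zero _ hl0)
  have hσ : ∀ σ : K ≃ₐ[K₀] K, gal Γ σ x = x := by
    intro σ
    have h1 : algebraMap K (FG Γ K) (σ c) * gal Γ σ x ^ m = algebraMap K (FG Γ K) c * x ^ m := by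
      have h2 := gal_emb σ f
      rw [hfx, map_mul, map_pow, gal_algebraMap] at h2
      exact h2
    have hσc : σ c ≠ 0 := by rwa [Ne, map_eq_zero_iff _ σ.injective]
    have h3 : (gal Γ σ x / x) ^ m = algebraMap K (FG Γ K) (c / σ c) := by
      rw [div_pow, map_div₀, div_eq_div_iff (pow_ne_zero _ hx0) (hal hσc), mul_comm, h1]
    have h4 : IsAlgebraic K (gal Γ σ x / x) := by
      refine ⟨X ^ m - C (c / σ c), X_pow_sub_C_ne_zero (Nat.pos_of_ne_zero hm) _, ?_⟩
      rw [map_sub, map_pow, aeval_X, aeval_C, h3, sub_self]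
    obtain ⟨a, ha⟩ := Curve.mem_range_of_isAlgebraic h4
    have h5 : gal Γ σ x = algebraMap K (FG Γ K) a * x := by
      rw [ha, div_mul_cancel₀ _ hx0]
    have h6 := congrArg (fun y : FG Γ K => (y : LaurentSeries K).coeff n) h5
    simp only [gal_coeff, coeff_algebraMap_mul, hxn, map_one, mul_one] at h6
    rw [h5, ← h6, map_one, one_mul]
  obtain ⟨h₀, hh₀⟩ := exists_of_fixed hfix hσ
  have hh0 : h₀ ≠ 0 := by
    rintro rfl
    rw [map_zero] at hh₀
    exact hx0 hh₀.symm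
  have e1 : emb K₀ K Γ (f / h₀ ^ m) = algebraMap K (FG Γ K) c := by
    rw [map_div₀, map_pow, hh₀, hfx, mul_div_cancel_right₀ _ (pow_ne_zero _ hx0)]
  set g : FG Γ K₀ := f / h₀ ^ m with hg
  set c₀ : K₀ := (g : LaurentSeries K₀).coeff 0 with hc₀
  have h1s : ((algebraMap K (FG Γ K) c : FG Γ K) : LaurentSeries K) = HahnSeries.C c := by
    change algebraMap K (LaurentSeries K) c = _
    rw [algebraMap_eq_C]
  have e2 : algebraMap K₀ K c₀ = c := by
    rw [hc₀, ← emb_coeff, e1, h1s, HahnSeries.C_apply, HahnSeries.coeff_single_same]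
  have e3 : g = algebraMap K₀ (FG Γ K₀) c₀ := by
    apply (emb K₀ K Γ).injective
    rw [e1, emb_algebraMap, e2]
  refine ⟨c₀, h₀, ?_, hh0, ?_, l⁻¹, inv_ne_zero hl0, hh₀⟩
  · rintro h7
    rw [h7, map_zero] at e2
    exact hc0 e2.symm
  · rw [← e3, hg, div_mul_cancel₀ _ (pow_ne_zero _ hh0)]

end

end Fermat.Agent.RlG
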