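import Fermat.Agent.RlG.Sur

/-!
# Realisation: the final count
-/

set_option autoImplicit false
set_option linter.unusedSectionVars false
set_option linter.style.haveILetI false

open scoped MatrixGroups
open Module Fermat.Agent.KumG Fermat.Agent.Cov ModularCurve Fermat.Agent.ModPoly Fermat.Agent.GamH
  Polynomial IntermediateField Fermat.Agent.RedMod Fermat.Agent.Red AlgebraicCurve Fermat.Agent.RR
  Fermat.Agent.SSH Fermat.Agent.SemiSt Fermat.Agent.Nod Fermat.Agent.Curve Fermat.Agent.E2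
  Fermat.Agent.E2K

namespace Fermat.Agent.RlG

noncomputable section

section Cnt

variable {A₀ K₀ A K k : Type*} [CommRing A₀] [IsDomain A₀] [IsDiscreteValuationRing A₀] [Field K₀]
  [CharZero K₀] [Algebra ℚ K₀]
  [Algebra A₀ K₀] [IsFractionRing A₀ K₀] [CommRing A] [IsDomain A] [ValuationRing A]
  [Field K] [IsAlgClosed K] [CharZero K] [Algebra ℚ K] [Algebra A K] [IsFractionRing A K]
  [Field k] [IsAlgClosed k] [Algebra A k] [Algebra A₀ k] [Algebra K₀ K]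
  {q M : ℕ} [hq : Fact q.Prime] [NeZero M]
  {H : Subgroup (ZMod M)ˣ} [hH : Fact ((-1 : (ZMod M)ˣ) ∈ H)] [CharP k q] [PerfectRing k q]
  [Algebra.IsAlgebraic K₀ K] (s : Set2 A₀ K₀ A K k q M H) {m : ℕ} [NeZero m]

variable [FunField k (FH k M H)] [FunField K (FG (GH M H) K)] [FunField K (FG (Gq q M H) K)]

/-- sections with poles bounded at infinity -/
theorem exists_DD_bound {t : FG (Gq q M H) K} (D : Divisor K (FG (Gq q M H) K))
    {x : FG (Gq q M H) K} (hx : ∀ v : Place K (FG (Gq q M H) K), 0 ≤ v.ord t → Ge v (D v) x) :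
    ∃ a : ℕ, x ∈ riemannRochSpace (DD K t a 0 - D) := by
  classical
  rcases eq_or_ne x 0 with rfl | hx0
  · exact ⟨0, zero_mem _⟩
  obtain ⟨a, ha⟩ : ∃ a : ℕ, ∀ v ∈ D.support ∪ (finite_ord (K := K) hx0).toFinset,
      D v - v.ord x ≤ a := by
    refine ⟨((D.support ∪ (finite_ord (K := K) hx0).toFinset).sup
      fun v => (D v - v.ord x).toNat), fun v hv => ?_⟩
    have h1 := Finset.le_sup (f := fun v => (D v - v.ord x).toNat) hv
    have h2 := Int.self_le_toNat (D v - v.ord x)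
    exact h2.trans (by exact_mod_cast h1)
  refine ⟨a, mem_L.2 fun v => Or.inr ?_⟩
  rw [Finsupp.sub_apply, DD_apply]
  simp only [Nat.cast_zero, zero_mul, add_zero]
  rcases le_or_gt 0 (v.ord t) with h | h
  · rw [max_eq_right (by omega), mul_zero]
    have := (hx v h).le_ord hx0
    omega
  · rw [max_eq_left (by omega)]
    have ha0 : (0 : ℤ) ≤ a := Int.natCast_nonneg a
    by_cases hv : v ∈ D.support ∪ (finite_ord (K := K) hx0).toFinset
    · have := ha v hv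
      nlinarith
    · rw [Finset.mem_union, not_or, Finsupp.mem_support_iff, not_not, Set.Finite.mem_toFinset]
        at hv
      have h1 : v.ord x = 0 := by
        by_contra h2
        exact hv.2 h2
      rw [hv.1, h1]
      nlinarith

theorem tor_count (hm : (m : k) ≠ 0)
    (hN : 2 * rrGenus k (FH k M H) ≤ rrGenus K (FG (Gq q M H) K)) :
    Nat.card (ZK s m) ≤ m ^ (rrGenus K (FG (Gq q M H) K) - 2 * rrGenus k (FH k M H)) ∧
    (m ^ (rrGenus K (FG (Gq q M H) K) - 2 * rrGenus k (FH k M H)) ≤ Nat.card (ZK s m) →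
      ∀ ρ : Place k (FH k M H) → k, (∀ Q, ρ Q ^ m = 1) →
      ∃ (g : FG (Gq q M H) K₀) (D : Divisor K (FG (Gq q M H) K)) (γ : Fin 2 → FH k M H), g ≠ 0 ∧
        (∀ v, (m : ℤ) * D v = v.ord (emb K₀ K (Gq q M H) g)) ∧
        (∀ j, (s.X.CC j).v g = 0) ∧ (∀ j, γ j ≠ 0 ∧ (s.X.CC j).r g = γ j ^ m) ∧
        ∀ Q : Place k (FH k M H), TyC.IsNd s Q → ∀ x : FG (Gq q M H) K₀, TyC.Sec0 s D x →
          val Q ((s.X.CC 0).r x / γ 0) =
            ρ Q * val (s.S₀.fd.g • Q) ((s.X.CC 1).r x / γ 1)) := by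
  classical
  letI := algA A (FG (Gq q M H) K)
  haveI := tower_algA A (FG (Gq q M H) K)
  letI := algA A (FH k M H)
  haveI := tower_algA A (FH k M H)
  haveI := s.toSetting.S.nonempty_ι'
  have hm0 : m ≠ 0 := NeZero.ne m
  have hq1 := hq.out.one_lt
  obtain ⟨b', hb'⟩ := exists_pow_ne k (n := q * q) (by nlinarith)
  obtain ⟨b, rfl⟩ := s.hk b'
  have HN := SSD.nodMod_ng s.toSetting.pol s.toSetting.sp s.toSetting.gen b hb'
  have hg := genus_nod (s.toSetting.S.ng_hspan b) HN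
  have hcard : Nat.card (Nd (s.toSetting.S.ng b) s.toSetting.S.G.hk s.toSetting.S.fd.nodes) - 1 =
      rrGenus K (FG (Gq q M H) K) - 2 * rrGenus k (FH k M H) := by omega
  haveI : Nonempty (Nd (s.toSetting.S.ng b) s.toSetting.S.G.hk s.toSetting.S.fd.nodes) := by
    by_contra h
    rw [not_nonempty_iff] at h
    rw [Nat.card_of_isEmpty] at hg
    omega
  choose f hf hv γ₀ hγ₀ using fun x : ZK s m => x.2
  have hf0 : ∀ x, f x ≠ 0 := fun x => ne_of_cls s (hf x)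
  have hrep : ∀ x : ZK s m, IsTw (s.toSetting.S.ng b) s.toSetting.S.G.hk
      s.toSetting.S.fd.nodes m (emb K₀ K (Gq q M H) (f x)) := by
    intro x
    have hr := s.X.hasRed_emb (hv x) (fun j => (hγ₀ x j).2)
    obtain ⟨D, hD⟩ := exists_divisor hm0 (hf x).ne_zero (hf x).kd.2
    have h1 : s.toSetting.S.sred ⟨emb K₀ K (Gq q M H) (f x), hr.mem⟩ =
        ((γ₀ x 0, γ₀ x 1) : FH k M H × FH k M H) ^ m :=
      SSD.HasRed.sred (a := γ₀ x 0 ^ m) (b := γ₀ x 1 ^ m) hr hr.mem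
    obtain ⟨ζ, T⟩ := TwData.exists_tw (m := m) (s.toSetting.S.ng_hspan b) HN hr.mem hm0 h1
      (hγ₀ x 0).1 (hγ₀ x 1).1 hD
    exact ⟨D, _, ζ, T⟩
  obtain ⟨-, c2, c3⟩ := count_aux (s.toSetting.S.ng_hspan b) HN s.hA s.hrank hm
    (rep := fun x : ZK s m => emb K₀ K (Gq q M H) (f x)) hrep (by
    rintro x y ⟨z, hz⟩
    have hz0 : z ≠ 0 := by
      rintro rfl
      rw [zero_pow hm0] at hz
      exact div_ne_zero (hf y).ne_zero (hf x).ne_zero hz.symm
    have h3 := (hf x).mul_pow hz0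
    rw [hz, mul_div_cancel₀ _ (hf x).ne_zero] at h3
    exact Subtype.ext (h3.unique (hf y)))
  rw [hcard] at c2 c3
  refine ⟨c2, fun hle ρ hρ => ?_⟩
  obtain ⟨x, D, γ, T⟩ := c3 hle (fun j => ρ j.1.1) (fun j => hρ _)
  have hr := s.X.hasRed (s.X.hasRed_r (Car.Comp.mem_of_v (hv x 0).ge)
    (Car.Comp.mem_of_v (hv x 1).ge))
  have hπ : ((s.X.CC 0).r (f x), (s.X.CC 1).r (f x)) = γ ^ m := by
    rw [← T.hπ]
    exact (SSD.HasRed.sred hr hr.mem).symm
  refine ⟨f x, D, ![γ.1, γ.2], hf0 x, T.hD, hv x, fun j => ?_, fun Q hQ x₀ hx₀ => ?_⟩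
  · match j with
    | 0 => exact ⟨T.h1, congrArg Prod.fst hπ⟩
    | 1 => exact ⟨T.h2, congrArg Prod.snd hπ⟩
  · have hr0 := s.X.hasRed (s.X.hasRed_r hx₀.w0 hx₀.w1)
    obtain ⟨a, ha⟩ := exists_DD_bound (t := s.toSetting.S.jq) D hx₀.ge
    obtain ⟨Q', hQ', hnode⟩ := nd_node s hQ b
    have h5 := T.tw a 0 (emb K₀ K (Gq q M H) x₀) hr0.mem (by
      rw [s.toSetting.S.DD_ng]
      exact ha) ⟨Q', hnode⟩
    have h6 := h5.2.2
    have e1 : (s.toSetting.S.ng b).π ⟨emb K₀ K (Gq q M H) x₀, hr0.mem⟩ =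
        ((s.X.CC 0).r x₀, (s.X.CC 1).r x₀) := SSD.HasRed.sred hr0 hr0.mem
    rw [e1] at h6
    have e2 : ∀ a b : FH k M H, a / b = b⁻¹ * a := fun a b => by
      rw [div_eq_mul_inv, mul_comm]
    change val Q ((s.X.CC 0).r x₀ / γ.1) = ρ Q * val (s.S₀.fd.g • Q)
      ((s.X.CC 1).r x₀ / γ.2)
    rw [e2, e2, g_eq s.X s.toSetting.sp, ← hQ']
    exact h6

theorem num_aux {p G g C Y : ℕ} (hp : 0 < p) (hN : 2 * g ≤ G)
    (h : ∀ n : ℕ, (p ^ n) ^ (2 * G) ≤ (p ^ n) ^ (G - 2 * g) * (C * Y ^ n)) :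
    p ^ (4 * g + (G - 2 * g)) ≤ Y := by
  apply le_of_forall_pow (C := C)
  intro n
  have h1 := h n
  have e : (p ^ n) ^ (2 * G) = (p ^ n) ^ (G - 2 * g) * (p ^ (4 * g + (G - 2 * g))) ^ n := by
    rw [← pow_mul, ← pow_mul, ← pow_mul, ← pow_add]
    congr 1
    obtain ⟨t, rfl⟩ := Nat.exists_eq_add_of_le hN
    rw [Nat.add_sub_cancel_left]
    ring
  rw [e] at h1
  exact Nat.le_of_mul_le_mul_left h1 (by positivity)

/-- **Realisation, from the ranks and the bound for the rational classes** -/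
theorem realize_of {p : ℕ} [hpp : Fact p.Prime] (hU : s.Unif) (hp : (p : k) ≠ 0)
    (hS : haveI : NeZero p := ⟨hpp.out.ne_zero⟩; SurjSpz s.toSetting p)
    (hN : 2 * rrGenus k (FH k M H) ≤ rrGenus K (FG (Gq q M H) K))
    (hrk1 : finrank ℤ (LZ (Gq q M H)) = 2 * rrGenus K (FG (Gq q M H) K))
    (hrk2 : finrank ℤ (LZ (GH M H)) = 2 * rrGenus K (FG (GH M H) K))
    (hbig : haveI : NeZero p := ⟨hpp.out.ne_zero⟩
      ∀ n : ℕ, Nat.card (XL (Gq q M H) (p ^ n)) ≤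
      (p ^ n) ^ (rrGenus K (FG (Gq q M H) K) - 2 * rrGenus k (FH k M H)) *
        Nat.card (VK s (p ^ n))) : TyC.Realize s p := by
  haveI : NeZero p := ⟨hpp.out.ne_zero⟩
  obtain ⟨C, hC, hCV⟩ := card_VK s
  have hg : rrGenus k (FH k M H) = rrGenus K (FG (GH M H) K) := s.toSetting.gen
  have hY : p ^ (4 * rrGenus k (FH k M H) +
      (rrGenus K (FG (Gq q M H) K) - 2 * rrGenus k (FH k M H))) ≤ Nat.card (YK s p) := by
    refine num_aux (C := C) hpp.out.pos hN fun n => ?_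
    rw [← hrk1, ← card_XL]
    refine (hbig n).trans (Nat.mul_le_mul_left _ ((hCV (p ^ n)).trans ?_))
    exact Nat.mul_le_mul_left _ (card_YK_pow s n)
  obtain ⟨a1, a2⟩ := surj_count s hU hS
  obtain ⟨b1, b2⟩ := tor_count s hp hN
  have e1 : Nat.card (XL (GH M H) p) ^ 2 = p ^ (4 * rrGenus k (FH k M H)) := by
    rw [card_XL, hrk2, ← hg, ← pow_mul]
    congr 1
    ring
  rw [e1] at a1 a2
  rw [pow_add] at hY
  have hZ : p ^ (rrGenus K (FG (Gq q M H) K) - 2 * rrGenus k (FH k M H)) ≤ Nat.card (ZK s p) :=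
    Nat.le_of_mul_le_mul_left (hY.trans a1) (pow_pos hpp.out.pos _)
  exact ⟨a2 ((Nat.mul_le_mul_left _ b1).trans hY), b2 hZ⟩

end Cnt

end

end Fermat.Agent.RlG
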