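import Fermat.Agent.Nod.Rigid
import Fermat.Agent.RR.LevelH
import Fermat.Agent.Cosets.Index
import Fermat.Agent.ThmC.Unif

/-!
# The genus and the number of nodes
-/

set_option autoImplicit false
set_option linter.unusedSectionVars false
set_option linter.style.haveILetI false

open AlgebraicCurve Fermat.Agent.Curve Fermat.Agent.RR Fermat.Agent.Red Module Polynomial
  IntermediateField ModularCurve

namespace Fermat.Agent.RlG

section Genus

variable {A K F k E₁ E₂ : Type*} [CommRing A] [IsDomain A] [ValuationRing A]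
  [Field K] [Algebra A K] [IsFractionRing A K] [Field F] [Algebra K F] [Algebra A F]
  [IsScalarTower A K F] [Field k] [Algebra A k] [Field E₁] [Field E₂] [Algebra k E₁]
  [Algebra k E₂] [Algebra A E₁] [Algebra A E₂] [IsScalarTower A k E₁] [IsScalarTower A k E₂]
  [IsAlgClosed K] [IsAlgClosed k] [CharZero K] [FunField K F] [FunField k E₁] [FunField k E₂]

variable {ι₀ : Type*} [Fintype ι₀] [Nonempty ι₀] {G : GaussData A K F k (E₁ × E₂) ι₀}
  {hk : Function.Surjective (algebraMap A k)}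
  {ι : Type*} [Finite ι] {𝒩 : Nod.Nodes k E₁ E₂ ι}

open Fermat.Agent.Nod in
/-- **Arithmetic genus of the special fibre.** -/
theorem genus_nod (hspan : ∀ x : F, ∃ q : K[X], q ≠ 0 ∧ ∃ P : ι₀ → K[X],
    aeval G.t q * x = G.comb P) (H : NodMod G hk hspan 𝒩) :
    rrGenus K F + 1 = rrGenus k E₁ + rrGenus k E₂ + Nat.card (Nd G hk 𝒩) := by
  classical
  haveI := Fintype.ofFinite (nodeSet G hk 𝒩 G.t)
  obtain ⟨n₀, hn₀⟩ := H.eq
  obtain ⟨c, hc⟩ := exists_riemann (K := K) (F := F)
  obtain ⟨c₁, hc₁⟩ := exists_riemann (K := k) (F := E₁)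
  obtain ⟨c₂, hc₂⟩ := exists_riemann (K := k) (F := E₂)
  have ht := G.transcendental (K := K)
  have ht1 := transcendental_tb_fst G
  have ht2 := transcendental_tb_snd G
  have hd : (1 : ℤ) ≤ finrank K⟮G.t⟯ F := by exact_mod_cast finrank_pos ht
  have hd1 : (1 : ℤ) ≤ finrank k⟮(tb G).1⟯ E₁ := by exact_mod_cast finrank_pos ht1
  have hd2 : (1 : ℤ) ≤ finrank k⟮(tb G).2⟯ E₂ := by exact_mod_cast finrank_pos ht2
  have hcN : Nat.card (Nd G hk 𝒩) = Fintype.card (nodeSet G hk 𝒩 G.t) := by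
    rw [Nat.card_eq_fintype_card]
  have q1 := Int.self_le_toNat c
  have q2 := Int.self_le_toNat (c₁ + Fintype.card (nodeSet G hk 𝒩 G.t))
  have q3 := Int.self_le_toNat c₂
  have p1 : (0 : ℤ) ≤ c.toNat := by positivity
  have p2 : (0 : ℤ) ≤ (c₁ + Fintype.card (nodeSet G hk 𝒩 G.t)).toNat := by positivity
  have p3 : (0 : ℤ) ≤ c₂.toNat := by positivity
  obtain ⟨n₁, hn₁⟩ : ∃ n₁ : ℕ, n₁ = n₀ + c.toNat +
    (c₁ + Fintype.card (nodeSet G hk 𝒩 G.t)).toNat + c₂.toNat := ⟨_, rfl⟩
  have hn₁' : (n₁ : ℤ) = n₀ + c.toNat +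
    (c₁ + Fintype.card (nodeSet G hk 𝒩 G.t)).toNat + c₂.toNat := by rw [hn₁]; push_cast; rfl
  have hn0' : (0 : ℤ) ≤ n₀ := by positivity
  have key : ∀ n : ℕ, n₁ ≤ n → (n : ℤ) * finrank K⟮G.t⟯ F + 1 - rrGenus K F +
      Fintype.card (nodeSet G hk 𝒩 G.t) = n * finrank k⟮(tb G).1⟯ E₁ + 1 - rrGenus k E₁ +
        (n * finrank k⟮(tb G).2⟯ E₂ + 1 - rrGenus k E₂) := by
    intro n hn
    have hn' : (n₁ : ℤ) ≤ n := by exact_mod_cast hn
    have e2 : finrank k (RS G hk hspan n 0) = ell (DD K G.t n 0) :=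
      (G.toRedModel hk hspan).finrank_rd hk _
    have e4 := finrank_GG (𝒩.restrict (nodeSet G hk 𝒩 G.t)) hc₁ 1 (DD k (tb G).1 n 0)
      (DD k (tb G).2 n 0) (fun j => DD_eq_zero (H.hv j) _ _) (fun j => DD_eq_zero (H.hw j) _ _)
      (by rw [degree_DD ht1]; push_cast; nlinarith)
    have e5 : finrank k (RS G hk hspan n 0) = finrank k (GG (𝒩.restrict (nodeSet G hk 𝒩 G.t)) 1
        (DD k (tb G).1 n 0) (DD k (tb G).2 n 0)) := by
      rw [hn₀ n 0 (by omega)]; rfl
    have e6 := hc (DD K G.t n 0) (by rw [degree_DD ht]; push_cast; nlinarith)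
    have e7 := hc₁ (DD k (tb G).1 n 0) (by rw [degree_DD ht1]; push_cast; nlinarith)
    have e8 := hc₂ (DD k (tb G).2 n 0) (by rw [degree_DD ht2]; push_cast; nlinarith)
    rw [degree_DD ht] at e6
    rw [degree_DD ht1] at e7
    rw [degree_DD ht2] at e8
    rw [← e5, e2] at e4
    have e9 : (ell (DD K G.t n 0) : ℤ) + Fintype.card (nodeSet G hk 𝒩 G.t) =
      ell (DD k (tb G).1 n 0) + ell (DD k (tb G).2 n 0) := by exact_mod_cast e4
    rw [e6, e7, e8] at e9
    push_cast at e9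
    linarith
  have k1 := key n₁ le_rfl
  have k2 := key (n₁ + 1) (by omega)
  push_cast at k2
  rw [hcN]
  have h3 : (finrank K⟮G.t⟯ F : ℤ) = finrank k⟮(tb G).1⟯ E₁ + finrank k⟮(tb G).2⟯ E₂ := by
    linarith
  rw [h3] at k1
  have k3 : (rrGenus K F : ℤ) + 1 = rrGenus k E₁ + rrGenus k E₂ +
    Fintype.card (nodeSet G hk 𝒩 G.t) := by linarith
  exact_mod_cast k3

end Genus

section Num

theorem cuspCount_mul_prime {q M : ℕ} (hq : q.Prime) (hM : M ≠ 0) (h : ¬ q ∣ M) :
    cuspCount (q * M) = 2 * cuspCount M := by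
  classical
  have hset : (q * M).divisors = M.divisors ∪ M.divisors.image (fun d => q * d) := by
    ext d
    simp only [Nat.mem_divisors, ne_eq, mul_eq_zero, hM, hq.ne_zero, or_self,
      not_false_eq_true, and_true, Finset.mem_union, Finset.mem_image]
    constructor
    · intro h1
      by_cases hpd : q ∣ d
      · obtain ⟨e, rfl⟩ := hpd
        right
        exact ⟨e, Nat.dvd_of_mul_dvd_mul_left hq.pos h1, rfl⟩
      · left
        exact (Nat.Coprime.dvd_of_dvd_mul_left
          (Nat.coprime_comm.mp ((Nat.Prime.coprime_iff_not_dvd hq).mpr hpd)) h1)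
    · rintro (h1 | ⟨e, h1, rfl⟩)
      · exact h1.mul_left q
      · exact Nat.mul_dvd_mul_left q h1
  have hdisj : Disjoint M.divisors (M.divisors.image (fun d => q * d)) := by
    rw [Finset.disjoint_left]
    rintro d hd hd'
    obtain ⟨e, -, rfl⟩ := Finset.mem_image.1 hd'
    exact h ((dvd_mul_right q e).trans (Nat.dvd_of_mem_divisors hd))
  rw [cuspCount, hset, Finset.sum_union hdisj, Finset.sum_image
    (fun x _ y _ h => Nat.eq_of_mul_eq_mul_left hq.pos h), two_mul]
  congr 1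
  · refine Finset.sum_congr rfl fun d hd => ?_
    have hd1 := Nat.dvd_of_mem_divisors hd
    have hc : Nat.Coprime q d := ((Nat.Prime.coprime_iff_not_dvd hq).mpr
      fun h2 => h (h2.trans hd1))
    rw [Nat.mul_div_assoc _ hd1]
    congr 1
    exact Nat.Coprime.gcd_mul_left_cancel_right _ hc
  · refine Finset.sum_congr rfl fun d hd => ?_
    have hd1 := Nat.dvd_of_mem_divisors hd
    rw [Nat.mul_div_mul_left _ _ hq.pos]
    congr 1
    exact Nat.Coprime.gcd_mul_left_cancel _ ((Nat.Prime.coprime_iff_not_dvd hq).mpr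
      fun h2 => h (h2.trans ⟨d, (Nat.div_mul_cancel hd1).symm⟩))

theorem genusFormula_ge {q M r : ℕ} [NeZero M] (hq : q.Prime) (h : ¬ q ∣ M) (hr : r.Prime)
    (hr12 : r % 12 = 11) (hrM : r ∣ M) : 2 * genusFormula M ≤ genusFormula (q * M) := by
  have hM := NeZero.ne M
  have e1 : dedekindPsi (q * M) = (q + 1) * dedekindPsi M := by
    rw [mul_comm, Fermat.Agent.Cosets.dedekindPsi_mul_of_not_dvd hq h]
  have hr' : r ∣ q * M := hrM.mul_left q
  rw [genusFormula, genusFormula, ThmC.nuTwo_eq_zero_of_prime hr hr12 hrM,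
    ThmC.nuThree_eq_zero_of_prime hr hr12 hrM, ThmC.nuTwo_eq_zero_of_prime hr hr12 hr',
    ThmC.nuThree_eq_zero_of_prime hr hr12 hr', cuspCount_mul_prime hq hM h, e1]
  have h2 : (12 : ℚ) ≤ dedekindPsi M := by
    obtain ⟨N, rfl⟩ := hrM
    have hN : N ≠ 0 := by
      rintro rfl
      exact hM (mul_zero r)
    have hr11 : 11 ≤ r := by
      have := Nat.mod_le r 12
      omega
    have h3 : 12 ≤ dedekindPsi (r * N) := by
      have h4 : r ∣ r * N := dvd_mul_right r N
      have h5 : 1 + r ≤ dedekindPsi (r * N) := by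
        classical
        rw [dedekindPsi]
        have hsub : ({1, r} : Finset ℕ) ⊆ (r * N).divisors.filter Squarefree := by
          intro d hd
          rw [Finset.mem_filter, Nat.mem_divisors]
          rcases Finset.mem_insert.1 hd with rfl | hd
          · exact ⟨⟨one_dvd _, hM⟩, squarefree_one⟩
          · rw [Finset.mem_singleton.1 hd]
            exact ⟨⟨h4, hM⟩, hr.squarefree⟩
        refine le_trans ?_ (Finset.sum_le_sum_of_subset hsub)
        rw [Finset.sum_pair (by omega), Nat.div_one, Nat.mul_div_cancel_left _ hr.pos]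
        have := Nat.pos_of_ne_zero hN
        nlinarith
      omega
    exact_mod_cast h3
  have h3 : (2 : ℚ) ≤ q := by exact_mod_cast hq.two_le
  push_cast
  nlinarith

end Num

end Fermat.Agent.RlG
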