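import Fermat.Agent.RlG.Obs2
import Fermat.Agent.E2K.Main

/-!
# Subgroups of the Kummer classes, and change of modulus
-/

set_option autoImplicit false
set_option linter.unusedSectionVars false
set_option linter.style.haveILetI false

open scoped MatrixGroups
open Module Fermat.Agent.KumG Fermat.Agent.Cov ModularCurve Fermat.Agent.ModPoly Fermat.Agent.GamH
  Polynomial IntermediateField Fermat.Agent.RedMod Fermat.Agent.Red AlgebraicCurve Fermat.Agent.RR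
  Fermat.Agent.SSH Fermat.Agent.SemiSt Fermat.Agent.Nod Fermat.Agent.Curve Fermat.Agent.E2
  Fermat.Agent.E2K

namespace Fermat.Agent.RlG

noncomputable section

section Mod

variable {K : Type*} [Field K] [Algebra ℚ K] [IsAlgClosed K] [CharZero K] {ι : K →+* ℂ}
  {Γ : Subgroup SL(2, ℤ)} [LvlG Γ] [RatG Γ]

theorem hasCls_iff {m : ℕ} [NeZero m] {x : FG Γ K} {Φ : LZ Γ} :
    HasCls ι m x (mkX Φ) ↔ Rep Γ (coeffMap ι (x : LaurentSeries K)) (redI m Φ) := by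
  constructor
  · rintro ⟨Ψ, h1, h2⟩
    rw [mkX_eq_iff] at h1
    rwa [← h1]
  · intro h
    exact ⟨Φ, rfl, h⟩

theorem hasCls_reduce {m M : ℕ} [NeZero m] [NeZero M] (h : m ∣ M) {x : FG Γ K} {Φ : LZ Γ}
    (hx : HasCls ι M x (mkX Φ)) : HasCls ι m x (mkX Φ) := by
  rw [hasCls_iff] at hx ⊢
  have h1 := hx.reduce h
  rwa [redZ_redI] at h1

/-- functions with trivial class modulo `m'` -/
theorem exists_root_cls {m m' M : ℕ} [NeZero m] [NeZero m'] [NeZero M] (hM : M = m * m')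
    {x : FG Γ K} {Φ : LZ Γ} (hx : HasCls ι M x (mkX Φ)) (h0 : (mkX Φ : XL Γ m') = 0) :
    ∃ (Ψ : LZ Γ) (z : FG Γ K), Φ = m' • Ψ ∧ z ≠ 0 ∧ x = z ^ m' ∧ HasCls ι m z (mkX Ψ) := by
  have h1 : redI m' Φ = 0 := by
    rw [← map_zero (mkX (Γ := Γ) (m := m')), mkX_eq_iff, redI_zero] at h0
    exact h0
  obtain ⟨Ψ, rfl⟩ := redI_eq_zero.1 h1
  obtain ⟨y, -, -, hy⟩ := exists_good (K := K) ι (mkX Ψ : XL Γ M) 1
  have h2 := hy.pow m'
  rw [← map_nsmul] at h2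
  obtain ⟨w, hw0, hw⟩ := h2.exists_pow hx
  refine ⟨Ψ, y * w ^ m, rfl, mul_ne_zero hy.ne_zero (pow_ne_zero _ hw0), ?_, ?_⟩
  · rw [hw, mul_pow, ← pow_mul, ← hM]
  · exact (hasCls_reduce ⟨m', hM⟩ hy).mul_pow hw0

end Mod

section Sub

variable {A₀ K₀ A K k : Type*} [CommRing A₀] [IsDomain A₀] [IsDiscreteValuationRing A₀] [Field K₀]
  [CharZero K₀] [Algebra ℚ K₀]
  [Algebra A₀ K₀] [IsFractionRing A₀ K₀] [CommRing A] [IsDomain A] [ValuationRing A]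
  [Field K] [IsAlgClosed K] [CharZero K] [Algebra ℚ K] [Algebra A K] [IsFractionRing A K]
  [Field k] [IsAlgClosed k] [Algebra A k] [Algebra A₀ k] [Algebra K₀ K]
  {q M : ℕ} [hq : Fact q.Prime] [NeZero M]
  {H : Subgroup (ZMod M)ˣ} [hH : Fact ((-1 : (ZMod M)ˣ) ∈ H)] [CharP k q] [PerfectRing k q]
  [Algebra.IsAlgebraic K₀ K] (s : Set2 A₀ K₀ A K k q M H)

/-- classes with a rational representative -/
def VK (m : ℕ) [NeZero m] : AddSubgroup (XL (Gq q M H) m) where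
  carrier := {ξ | ∃ f : FG (Gq q M H) K₀, HasCls s.ι m (emb K₀ K (Gq q M H) f) ξ}
  zero_mem' := ⟨1, by
    rw [map_one, ← one_pow m]
    exact HasCls.pow_self s.ι one_ne_zero⟩
  add_mem' := by
    rintro ξ η ⟨f, hf⟩ ⟨g, hg⟩
    exact ⟨f * g, by rw [map_mul]; exact hf.mul hg⟩
  neg_mem' := by
    rintro ξ ⟨f, hf⟩
    exact ⟨f⁻¹, by rw [map_inv₀]; exact hf.inv⟩

theorem ne_of_cls {m : ℕ} [NeZero m] {f : FG (Gq q M H) K₀} {ξ : XL (Gq q M H) m}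
    (hf : HasCls s.ι m (emb K₀ K (Gq q M H) f) ξ) : f ≠ 0 := by
  rintro rfl
  exact hf.ne_zero (map_zero _)

/-- classes with a rational representative of valuation zero -/
def YK (m : ℕ) [NeZero m] : AddSubgroup (XL (Gq q M H) m) where
  carrier := {ξ | ∃ f : FG (Gq q M H) K₀, HasCls s.ι m (emb K₀ K (Gq q M H) f) ξ ∧
    ∀ j, (s.X.CC j).v f = 0}
  zero_mem' := ⟨1, by
    rw [map_one, ← one_pow m]
    exact HasCls.pow_self s.ι one_ne_zero, fun j => Car.Comp.v_one _⟩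
  add_mem' := by
    rintro ξ η ⟨f, hf, hvf⟩ ⟨g, hg, hvg⟩
    refine ⟨f * g, by rw [map_mul]; exact hf.mul hg, fun j => ?_⟩
    rw [Car.Comp.v_mul _ (ne_of_cls s hf) (ne_of_cls s hg), hvf, hvg, add_zero]
  neg_mem' := by
    rintro ξ ⟨f, hf, hvf⟩
    refine ⟨f⁻¹, by rw [map_inv₀]; exact hf.inv, fun j => ?_⟩
    rw [Car.Comp.v_inv, hvf, neg_zero]

/-- classes with a rational representative whose reductions are powers -/
def ZK (m : ℕ) [NeZero m] : AddSubgroup (XL (Gq q M H) m) where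
  carrier := {ξ | ∃ f : FG (Gq q M H) K₀, HasCls s.ι m (emb K₀ K (Gq q M H) f) ξ ∧
    (∀ j, (s.X.CC j).v f = 0) ∧ ∃ γ : Fin 2 → FH k M H, ∀ j, γ j ≠ 0 ∧
      (s.X.CC j).r f = γ j ^ m}
  zero_mem' := ⟨1, by
    rw [map_one, ← one_pow m]
    exact HasCls.pow_self s.ι one_ne_zero, fun j => Car.Comp.v_one _, fun _ => 1,
    fun j => ⟨one_ne_zero, by rw [Car.Comp.r_one, one_pow]⟩⟩
  add_mem' := by
    rintro ξ η ⟨f, hf, hvf, γ, hγ⟩ ⟨g, hg, hvg, δ, hδ⟩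
    refine ⟨f * g, by rw [map_mul]; exact hf.mul hg, fun j => ?_, γ * δ, fun j =>
      ⟨mul_ne_zero (hγ j).1 (hδ j).1, ?_⟩⟩
    · rw [Car.Comp.v_mul _ (ne_of_cls s hf) (ne_of_cls s hg), hvf, hvg, add_zero]
    · rw [Car.Comp.r_mul (Car.Comp.mem_of_v (hvf j).ge) (Car.Comp.mem_of_v (hvg j).ge),
        (hγ j).2, (hδ j).2, Pi.mul_apply, mul_pow]
  neg_mem' := by
    rintro ξ ⟨f, hf, hvf, γ, hγ⟩
    refine ⟨f⁻¹, by rw [map_inv₀]; exact hf.inv, fun j => ?_, γ⁻¹, fun j =>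
      ⟨inv_ne_zero (hγ j).1, ?_⟩⟩
    · rw [Car.Comp.v_inv, hvf, neg_zero]
    · rw [Car.Comp.r_inv (hvf j), (hγ j).2, Pi.inv_apply, inv_pow]

/-- scaling by constants -/
theorem exists_scale_const {f : FG (Gq q M H) K₀} (hf : f ≠ 0)
    (h : (s.X.CC 0).v f = (s.X.CC 1).v f) : ∃ c : K₀, c ≠ 0 ∧
      ∀ j, (s.X.CC j).v (f * algebraMap K₀ (FG (Gq q M H) K₀) c) = 0 := by
  have hq0 : algebraMap A₀ K₀ (q : A₀) ≠ 0 := by
    rw [Ne, map_eq_zero_iff _ (IsFractionRing.injective A₀ K₀)]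
    exact s.q_ne
  refine ⟨algebraMap A₀ K₀ (q : A₀) ^ (-((s.X.CC 0).v f)), zpow_ne_zero _ hq0, fun j => ?_⟩
  have hq1 : algebraMap K₀ (FG (Gq q M H) K₀) (algebraMap A₀ K₀ (q : A₀)) ≠ 0 := by
    rwa [Ne, map_eq_zero]
  have e : (s.X.CC j).v f = (s.X.CC 0).v f := by
    match j with
    | 0 => rfl
    | 1 => exact h.symm
  rw [map_zpow₀, Car.Comp.v_mul _ hf (zpow_ne_zero _ hq1), Car.Comp.v_zpow, s.X.v_q j, e]
  ring

theorem emb_algebraMap (c : K₀) : emb K₀ K (Gq q M H) (algebraMap K₀ (FG (Gq q M H) K₀) c) =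
    algebraMap K (FG (Gq q M H) K) (algebraMap K₀ K c) := by
  apply Subtype.ext
  rw [coe_emb]
  change coeffMap (algebraMap K₀ K) (algebraMap K₀ (LaurentSeries K₀) c) =
    algebraMap K (LaurentSeries K) _
  rw [algebraMap_eq_C, algebraMap_eq_C, coeffMap_C]

theorem mem_YK_of {m : ℕ} [NeZero m] {f : FG (Gq q M H) K₀} {ξ : XL (Gq q M H) m}
    (hf : HasCls s.ι m (emb K₀ K (Gq q M H) f) ξ) (h : (s.X.CC 0).v f = (s.X.CC 1).v f) :
    ξ ∈ YK s m := by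
  obtain ⟨c, hc, hv⟩ := exists_scale_const s (ne_of_cls s hf) h
  refine ⟨_, ?_, hv⟩
  rw [map_mul, emb_algebraMap]
  refine hf.mul_const ?_
  rwa [Ne, map_eq_zero]

/-- **descent of roots** -/
theorem exists_root_YK {m m' M' : ℕ} [NeZero m] [NeZero m'] [NeZero M'] (hM : M' = m * m')
    {Φ : LZ (Gq q M H)} (hx : (mkX Φ : XL (Gq q M H) M') ∈ YK s M')
    (h0 : (mkX Φ : XL (Gq q M H) m') = 0) :
    ∃ Ψ : LZ (Gq q M H), Φ = m' • Ψ ∧ (mkX Ψ : XL (Gq q M H) m) ∈ YK s m := by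
  obtain ⟨f, hf, hv⟩ := hx
  obtain ⟨Ψ, z, h1, hz0, h2, h3⟩ := exists_root_cls hM hf h0
  refine ⟨Ψ, h1, ?_⟩
  obtain ⟨c, h₀, hc, hh₀, he, a, ha, hea⟩ := desc_pow (Γ := Gq q M H) s.hfix (f := f) (c' := 1)
    (h' := z) (m := m') (NeZero.ne m') one_ne_zero hz0 (by rw [map_one, one_mul]; exact h2)
  have hc' : algebraMap K₀ (FG (Gq q M H) K₀) c ≠ 0 := by rwa [Ne, map_eq_zero]
  refine mem_YK_of s (f := h₀) ?_ ?_
  · have h4 := h3.mul_const ha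
    have e : z * algebraMap K (FG (Gq q M H) K) a = emb K₀ K (Gq q M H) h₀ := by
      rw [hea]; exact _root_.mul_comm _ _
    rwa [e] at h4
  · have e0 := hv 0
    have e1 := hv 1
    rw [he, Car.Comp.v_mul _ hc' (pow_ne_zero _ hh₀), Car.Comp.v_pow] at e0 e1
    have e2 := v_const s.X c
    rw [← e2] at e1
    have hm' : (m' : ℤ) ≠ 0 := by exact_mod_cast NeZero.ne m'
    apply mul_left_cancel₀ hm'
    linarith

end Sub

end

end Fermat.Agent.RlG
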