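import Fermat.Agent.TyC.Iface
import Fermat.Agent.SSH.Unip

/-!
# Intersection points over the small field are nodes over the big field
-/

set_option autoImplicit false
set_option linter.unusedSectionVars false
set_option linter.style.haveILetI false

open Module ModularCurve Polynomial IntermediateField Fermat.Agent.ModPoly Fermat.Agent.Red
  Fermat.Agent.RedMod Fermat.Agent.Cov Fermat.Agent.SemiSt AlgebraicCurve Fermat.Agent.Nod
  Fermat.Agent.Curve Fermat.Agent.RR Fermat.Agent.SSH Fermat.Agent.E2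

namespace Fermat.Agent.RlG

noncomputable section

attribute [local instance 10000] fastAlg

section Ext

variable {A₀ K₀ A Ω k : Type*} [CommRing A₀] [IsDomain A₀] [IsDiscreteValuationRing A₀] [Field K₀]
  [Algebra A₀ K₀] [IsFractionRing A₀ K₀] [CommRing A] [IsDomain A] [ValuationRing A]
  [Field Ω] [IsAlgClosed Ω] [CharZero Ω] [Algebra A Ω] [IsFractionRing A Ω] [Field k]
  [IsAlgClosed k] [Algebra A k] [Algebra A₀ k] [Algebra K₀ Ω]
  {FM₀ Fq₀ : IntermediateField K₀ (LaurentSeries K₀)}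
  {FM Fq : IntermediateField Ω (LaurentSeries Ω)}
  {E : IntermediateField k (LaurentSeries k)} {ι : Type*} [Fintype ι] {y : ι → LaurentSeries ℤ}
  {q : ℕ} [hq : Fact q.Prime] [CharP k q] [PerfectRing k q]
  {S₀ : SSD A₀ FM₀ Fq₀ E y q} {S : SSD A FM Fq E y q} (X : SExt S₀ S)
  [FunField k E] [FunField Ω FM] [FunField Ω Fq]

set_option maxHeartbeats 2000000 in
/-- reductions of regular functions over the big field are reductions of rational regular
functions -/
theorem exists_low {x : Fq} (hr : Reg Ω S.jq x) {a b : E}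
    (h : S.HasRed x (a : LaurentSeries k) (b : LaurentSeries k)) :
    ∃ x₀ : Fq₀, S₀.HasRed x₀ (a : LaurentSeries k) (b : LaurentSeries k) ∧
      Reg Ω S.jq (X.Dq.emb x₀) := by
  letI := algA A Fq
  haveI := tower_algA A Fq
  letI := algA A E
  haveI := tower_algA A E
  letI i1 := algA A₀ Fq₀
  haveI := tower_algA A₀ Fq₀
  letI i2 := algA A₀ E
  haveI := tower_algA A₀ E
  obtain ⟨n, hn⟩ := exists_mem_DD S.trans_jq hr
  set V : Submodule Ω Fq := riemannRochSpace (DD Ω S.jq n 0) with hV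
  haveI hVfin : FiniteDimensional Ω V := inferInstance
  have hst : X.Dq.Stable V := by
    have := stable_DD X.Dq (t := S₀.jq) (by rw [X.emb_jq]; exact S.trans_jq) n 0
    rwa [X.emb_jq] at this
  haveI := Car.Desc.finite_low hst
  have hdim := Car.Desc.finrank_low hst
  let M₀ : RedModel A₀ K₀ Fq₀ k (E × E) := S₀.sgauss.toRedModel S₀.G.hk S₀.sgauss_span
  let M : RedModel A Ω Fq k (E × E) := S.sgauss.toRedModel S.G.hk S.sgauss_span
  have hd1 := M₀.finrank_rd S₀.G.hk (X.Dq.low V)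
  have hd2 := M.finrank_rd S.G.hk V
  have hle : M₀.rd S₀.G.hk (X.Dq.low V) ≤ M.rd S.G.hk V := by
    rintro _ ⟨x, ⟨hxW, hxV⟩, rfl⟩
    have h1 : S₀.HasRed x (S₀.sred ⟨x, hxW⟩).1 (S₀.sred ⟨x, hxW⟩).2 := S₀.hasRed_sred hxW
    have h2 := X.hasRed h1
    refine ⟨X.Dq.emb x, ⟨h2.mem, hxV⟩, ?_⟩
    exact h2.sred h2.mem
  haveI := M.finiteDimensional_rd S.G.hk V
  have heq := Submodule.eq_of_le_of_finrank_eq hle (by rw [hd1, hd2, hdim])
  have hz : (a, b) ∈ M.rd S.G.hk V := ⟨x, ⟨h.mem, hn⟩, h.sred h.mem⟩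
  rw [← heq] at hz
  obtain ⟨x₀, ⟨hxW, hxV⟩, hxz⟩ := hz
  refine ⟨x₀, ?_, reg_of_mem_DD hxV⟩
  have h1 : S₀.HasRed x₀ (S₀.sred ⟨x₀, hxW⟩).1 (S₀.sred ⟨x₀, hxW⟩).2 := S₀.hasRed_sred hxW
  have h2 : S₀.sred ⟨x₀, hxW⟩ = (a, b) := hxz
  rwa [h2] at h1

include X in
/-- the relative Frobenius does not depend on the base -/
theorem sg_eq (hS : SP S.G) (a : E) : S₀.sg a = S.sg a := by
  obtain ⟨x, hx⟩ := SExt.exists_LR (S₀ := S₀) (S := S) hS a
  have h1 := X.hasRed (SSD.hasRed_inc (S := S₀) hx)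
  have h2 : LR A (X.DM.emb x : LaurentSeries Ω) (a : LaurentSeries k) :=
    (LR_emb X.B hx).of_eq (X.coeM x).symm rfl
  have h3 := SSD.hasRed_inc (S := S) h2
  rw [X.emb_inc] at h1
  exact Subtype.ext (h1.2.unique h3.2)

include X in
theorem g_eq (hS : SP S.G) : S₀.fd.g = S.fd.g := by
  have h1 : ∀ x : E, S₀.fd.g • x = S.fd.g • x := by
    intro x
    have e1 := S₀.fd.hσ x
    have e2 := S.fd.hσ x
    rw [← e2] at e1
    have e3 : S₀.sg (S₀.fd.g • x) = S.sg (S.fd.g • x) := e1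
    rw [sg_eq X hS] at e3
    exact S.sg.injective e3
  apply Subtype.ext
  apply Prod.ext
  · exact RingEquiv.ext h1
  · apply RingEquiv.ext
    intro c
    have e1 := h1 (algebraMap k E c)
    rw [SemilinearAut.smul_algebraMap, SemilinearAut.smul_algebraMap] at e1
    exact (algebraMap k E).injective e1

include X in
/-- glued points are nodes over the big field -/
theorem node_of_gl (hS : SP S.G) {Q : Place k E} (hQ : 0 ≤ Q.ord S₀.jE)
    (hgg : S₀.fd.g • S₀.fd.g • Q = Q)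
    (hval : ∀ x₀ : Fq₀, ∀ a b : E, S₀.HasRed x₀ (a : LaurentSeries k) (b : LaurentSeries k) →
      Reg Ω S.jq (X.Dq.emb x₀) → val Q a = val (S₀.fd.g • Q) b) (b' : A) :
    letI := algA A Fq
    haveI := tower_algA A Fq
    letI := algA A E
    haveI := tower_algA A E
    ∃ j : S.fd.Cand, j.1 = Q ∧ j ∈ nodeSet (S.ng b') S.G.hk S.fd.nodes (S.ng b').t := by
  letI := algA A Fq
  haveI := tower_algA A Fq
  letI := algA A E
  haveI := tower_algA A E
  rw [g_eq X hS] at hgg hval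
  refine ⟨⟨Q, hQ, hgg⟩, rfl, ?_⟩
  rintro r ⟨x, hx, hint, rfl⟩
  have hreg : Reg Ω S.jq x := by
    rw [← S.reg_ng b', reg_iff_isIntegralElem (S.ng_trans b')]
    exact hint
  have h1 := S.hasRed_sred hx
  obtain ⟨x₀, h2, h3⟩ := exists_low X hreg h1
  exact hval x₀ _ _ h2 h3

end Ext

section Main

open scoped MatrixGroups
open Fermat.Agent.KumG Fermat.Agent.GamH

variable {A₀ K₀ A K k : Type*} [CommRing A₀] [IsDomain A₀] [IsDiscreteValuationRing A₀] [Field K₀]
  [CharZero K₀] [Algebra ℚ K₀]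
  [Algebra A₀ K₀] [IsFractionRing A₀ K₀] [CommRing A] [IsDomain A] [ValuationRing A]
  [Field K] [IsAlgClosed K] [CharZero K] [Algebra ℚ K] [Algebra A K] [IsFractionRing A K]
  [Field k] [IsAlgClosed k] [Algebra A k] [Algebra A₀ k] [Algebra K₀ K]
  {q M : ℕ} [hq : Fact q.Prime] [NeZero M]
  {H : Subgroup (ZMod M)ˣ} [hH : Fact ((-1 : (ZMod M)ˣ) ∈ H)] [CharP k q] [PerfectRing k q]
  [Algebra.IsAlgebraic K₀ K]

/-- **intersection points are nodes over the big field** -/
theorem nd_node (s : Set2 A₀ K₀ A K k q M H) {Q : Place k (FH k M H)} (h : TyC.IsNd s Q)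
    (b : A) :
    letI := algA A (KumG.FG (Gq q M H) K)
    haveI := tower_algA A (KumG.FG (Gq q M H) K)
    letI := algA A (FH k M H)
    haveI := tower_algA A (FH k M H)
    ∃ j : s.toSetting.S.fd.Cand, j.1 = Q ∧
      j ∈ nodeSet (s.toSetting.S.ng b) s.toSetting.S.G.hk s.toSetting.S.fd.nodes
        (s.toSetting.S.ng b).t := by
  haveI := s.toSetting.ffE
  haveI := s.toSetting.ffM
  haveI := s.toSetting.ffq
  refine node_of_gl s.X s.toSetting.sp h.2.1 h.1 (fun x₀ a c h1 h2 => ?_) b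
  have h3 := h.2.2 x₀ ⟨h1.1.1, h1.2.1, fun v hv => h2 v hv⟩
  rwa [s.X.r0_of h1, s.X.r1_of h1] at h3

end Main

end

end Fermat.Agent.RlG
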