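import Fermat.Agent.Car.Model

/-!
# Base change of norms
-/

set_option autoImplicit false
set_option linter.unusedSectionVars false
set_option linter.style.haveILetI false

namespace Fermat.Agent.RlG

noncomputable section

open Module Polynomial IntermediateField

variable {K₀ F₀ K F : Type*} [Field K₀] [Field F₀] [Algebra K₀ F₀] [Field K] [Field F]
    [Algebra K F] [Algebra K₀ K] (D : Car.Desc K₀ F₀ K F) {U : F₀}

theorem emb_aeval (P : K₀[X]) : D.emb (aeval U P) = aeval (D.emb U) (P.map (algebraMap K₀ K)) := by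
  rw [aeval_def, hom_eval₂, aeval_def, eval₂_map]
  congr 1
  apply RingHom.ext
  intro c
  exact D.hemb c

theorem emb_mem_adjoin {x : F₀} (hx : x ∈ K₀⟮U⟯) : D.emb x ∈ K⟮D.emb U⟯ := by
  obtain ⟨P, Q, rfl⟩ := (mem_adjoin_simple_iff K₀ x).1 hx
  rw [map_div₀, emb_aeval, emb_aeval]
  exact div_mem (algebra_adjoin_le_adjoin K _ (aeval_mem_adjoin_singleton K _))
    (algebra_adjoin_le_adjoin K _ (aeval_mem_adjoin_singleton K _))

variable (U) in
/-- the embedding of the rational subfields -/
def embU : K₀⟮U⟯ →+* K⟮D.emb U⟯ where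
  toFun x := ⟨D.emb x, emb_mem_adjoin D x.2⟩
  map_one' := Subtype.ext (map_one D.emb)
  map_mul' x y := Subtype.ext (map_mul D.emb (x : F₀) y)
  map_zero' := Subtype.ext (map_zero D.emb)
  map_add' x y := Subtype.ext (map_add D.emb (x : F₀) y)

theorem coe_embU (x : K₀⟮U⟯) : (embU D U x : F) = D.emb x := rfl

theorem exists_common {n : ℕ} {V : F} (a : Fin n → K⟮V⟯) :
    ∃ (q : F) (R : Fin n → K[X]), q ≠ 0 ∧ ∀ i, (a i : F) * q = aeval V (R i) := by
  classical
  have h1 : ∀ i, ∃ P Q : K[X], aeval V Q ≠ 0 ∧ (a i : F) * aeval V Q = aeval V P := by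
    intro i
    obtain ⟨P, Q, h⟩ := (mem_adjoin_simple_iff K (a i : F)).1 (a i).2
    by_cases hQ : aeval V Q = 0
    · refine ⟨0, 1, by rw [map_one]; exact one_ne_zero, ?_⟩
      rw [h, hQ, div_zero, zero_mul, map_zero]
    · exact ⟨P, Q, hQ, by rw [h, div_mul_cancel₀ _ hQ]⟩
  choose P Q hQ hPQ using h1
  refine ⟨∏ j, aeval V (Q j), fun i => P i * ∏ j ∈ Finset.univ.erase i, Q j,
    Finset.prod_ne_zero_iff.2 fun j _ => hQ j, fun i => ?_⟩
  rw [← Finset.mul_prod_erase Finset.univ _ (Finset.mem_univ i), ← mul_assoc, hPQ, map_mul,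
    map_prod]

theorem linearIndependent_emb (hU : Transcendental K₀ U) {n : ℕ} {e : Fin n → F₀}
    (he : LinearIndependent K₀⟮U⟯ e) :
    LinearIndependent K⟮D.emb U⟯ (fun i => D.emb (e i)) := by
  classical
  rw [Fintype.linearIndependent_iff]
  intro a ha
  obtain ⟨q, R, hq, hR⟩ := exists_common a
  -- the powers of `U` times the basis
  obtain ⟨N, hN⟩ : ∃ N : ℕ, ∀ i, (R i).natDegree < N := by
    refine ⟨(Finset.univ.sup fun i => (R i).natDegree) + 1, fun i => ?_⟩
    exact Nat.lt_succ_of_le (Finset.le_sup (f := fun i => (R i).natDegree) (Finset.mem_univ i))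
  have hpow : LinearIndependent K₀ (fun j : Fin N => (AdjoinSimple.gen K₀ U) ^ (j : ℕ)) := by
    rw [Fintype.linearIndependent_iff]
    intro c hc j
    have h1 : aeval U (∑ j : Fin N, C (c j) * X ^ (j : ℕ)) = 0 := by
      rw [map_sum]
      have h2 := congrArg (algebraMap K₀⟮U⟯ F₀) hc
      rw [map_sum, map_zero] at h2
      rw [← h2]
      refine Finset.sum_congr rfl fun j _ => ?_
      rw [map_mul, aeval_C, map_pow, aeval_X, Algebra.smul_def, map_mul, map_pow,
        ← IsScalarTower.algebraMap_apply]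
      rfl
    have h3 := transcendental_iff.1 hU _ h1
    have h4 := congrArg (fun p => p.coeff (j : ℕ)) h3
    simp only [finsetSum_coeff, coeff_C_mul, coeff_X_pow, coeff_zero, mul_ite, mul_one,
      mul_zero] at h4
    rw [Finset.sum_eq_single j] at h4
    · simpa using h4
    · intro b _ hb
      rw [if_neg]
      intro h
      exact hb (Fin.ext h.symm)
    · intro h; exact absurd (Finset.mem_univ _) h
  have h1 := linearIndependent_smul hpow he
  let eqv : Fin (N * n) ≃ Fin N × Fin n := finProdFinEquiv.symm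
  have h2 := D.indep (N * n) (fun t => (AdjoinSimple.gen K₀ U) ^ ((eqv t).1 : ℕ) • e (eqv t).2)
    (h1.comp eqv eqv.injective)
  rw [Fintype.linearIndependent_iff] at h2
  have h3 : ∀ t : Fin (N * n), (R (eqv t).2).coeff ((eqv t).1 : ℕ) = 0 := by
    refine h2 _ ?_
    have h4 : ∑ p : Fin N × Fin n, ((R p.2).coeff (p.1 : ℕ)) •
        D.emb ((AdjoinSimple.gen K₀ U) ^ (p.1 : ℕ) • e p.2) = 0 := by
      rw [Fintype.sum_prod_type, Finset.sum_comm]
      have h5 : ∀ i : Fin n, ∑ j : Fin N, ((R i).coeff (j : ℕ)) •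
          D.emb ((AdjoinSimple.gen K₀ U) ^ (j : ℕ) • e i) = aeval (D.emb U) (R i) * D.emb (e i) := by
        intro i
        rw [aeval_eq_sum_range' (hN i), Finset.sum_mul, ← Fin.sum_univ_eq_sum_range
          (fun j => (R i).coeff j • (D.emb U) ^ j * D.emb (e i)) N]
        refine Finset.sum_congr rfl fun j _ => ?_
        rw [Algebra.smul_def (AdjoinSimple.gen K₀ U ^ (j : ℕ)), map_mul, smul_mul_assoc]
        congr 2
        rw [map_pow, AdjoinSimple.algebraMap_gen, map_pow]
      rw [Finset.sum_congr rfl fun i _ => h5 i]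
      have h6 : ∑ i, aeval (D.emb U) (R i) * D.emb (e i) = q * ∑ i, (a i) • D.emb (e i) := by
        rw [Finset.mul_sum]
        refine Finset.sum_congr rfl fun i _ => ?_
        rw [← hR, Algebra.smul_def]
        change (a i : F) * q * _ = q * ((a i : F) * _)
        ring
      rw [h6, ha, mul_zero]
    rw [← Equiv.sum_comp eqv] at h4
    exact h4
  intro i
  have h7 : R i = 0 := by
    ext j
    rw [coeff_zero]
    by_cases hj : j < N
    · have := h3 (eqv.symm (⟨j, hj⟩, i))
      rwa [Equiv.apply_symm_apply] at this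
    · exact coeff_eq_zero_of_natDegree_lt (lt_of_lt_of_le (hN i) (not_lt.1 hj))
  have h8 := hR i
  rw [h7, map_zero] at h8
  apply Subtype.ext
  exact (mul_eq_zero.1 h8).resolve_right hq

theorem finrank_le [FiniteDimensional K₀⟮U⟯ F₀] (hU : Transcendental K₀ U)
    [FiniteDimensional K⟮D.emb U⟯ F] : finrank K₀⟮U⟯ F₀ ≤ finrank K⟮D.emb U⟯ F := by
  have h := linearIndependent_emb D hU (Module.finBasis K₀⟮U⟯ F₀).linearIndependent
  have := h.fintype_card_le_finrank
  rwa [Fintype.card_fin] at this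

/-- **base change of norms** -/
theorem emb_norm [FiniteDimensional K₀⟮U⟯ F₀] (hU : Transcendental K₀ U)
    (hd : finrank K₀⟮U⟯ F₀ = finrank K⟮D.emb U⟯ F) (hpos : 0 < finrank K₀⟮U⟯ F₀) (f : F₀) :
    D.emb (Algebra.norm K₀⟮U⟯ f : K₀⟮U⟯) = (Algebra.norm K⟮D.emb U⟯ (D.emb f) : K⟮D.emb U⟯) := by
  classical
  haveI : Nonempty (Fin (finrank K₀⟮U⟯ F₀)) := ⟨⟨0, hpos⟩⟩
  let b := Module.finBasis K₀⟮U⟯ F₀
  let B : Basis (Fin (finrank K₀⟮U⟯ F₀)) K⟮D.emb U⟯ F :=
    basisOfLinearIndependentOfCardEqFinrank (linearIndependent_emb D hU b.linearIndependent)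
      (by rw [Fintype.card_fin, hd])
  have hB : ∀ i, B i = D.emb (b i) := fun i => by
    simp only [B, coe_basisOfLinearIndependentOfCardEqFinrank]
  have hmat : Algebra.leftMulMatrix B (D.emb f) =
      (Algebra.leftMulMatrix b f).map (embU D U) := by
    ext1 i j
    rw [Algebra.leftMulMatrix_eq_repr_mul, hB]
    have h1 : f * b j = ∑ i, Algebra.leftMulMatrix b f i j • b i := by
      rw [← b.sum_repr (f * b j)]
      exact Finset.sum_congr rfl fun i _ => by rw [Algebra.leftMulMatrix_eq_repr_mul]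
    have h2 : D.emb f * D.emb (b j) =
        ∑ i, (embU D U (Algebra.leftMulMatrix b f i j)) • B i := by
      rw [← map_mul, h1, map_sum]
      refine Finset.sum_congr rfl fun i _ => ?_
      rw [Algebra.smul_def, map_mul, Algebra.smul_def, hB]
      rfl
    rw [h2, map_sum, Finsupp.finsetSum_apply]
    simp only [map_smul, Finsupp.smul_apply, Basis.repr_self, smul_eq_mul]
    rw [Finset.sum_eq_single i]
    · rw [Finsupp.single_eq_same, mul_one]
      rfl
    · intro c _ hc
      rw [Finsupp.single_eq_of_ne (Ne.symm hc), mul_zero]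
    · intro h; exact absurd (Finset.mem_univ _) h
  rw [Algebra.norm_eq_matrix_det B, hmat, Algebra.norm_eq_matrix_det b, ← RingHom.mapMatrix_apply,
    ← RingHom.map_det]
  rfl

end

end Fermat.Agent.RlG
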