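import Fermat.Agent.Spec.Ext
import Fermat.Agent.Nod.Kummer

/-!
# Norms to rational function fields
-/

set_option autoImplicit false
set_option linter.unusedSectionVars false
set_option linter.style.haveILetI false

namespace Fermat.Agent.RlG

open Module Polynomial IntermediateField AlgebraicCurve Fermat.Agent.RR Fermat.Agent.Curve

section Rat

variable {K F : Type*} [Field K] [IsAlgClosed K] [Field F] [Algebra K F] [FunField K F]

theorem pow_mem_L {U : F} {i n : ℕ} (hi : i ≤ n) :
    U ^ i ∈ riemannRochSpace (n • poleDiv K U) := by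
  rw [mem_L]
  intro v
  right
  rw [ord_pow, Finsupp.smul_apply, poleDiv_apply, nsmul_eq_mul]
  have h1 : (i : ℤ) ≤ n := by exact_mod_cast hi
  have h2 : (0 : ℤ) ≤ i := by positivity
  rcases le_total 0 (v.ord U) with h | h
  · rw [max_eq_right (by linarith)]
    have := mul_nonneg h2 h
    linarith
  · rw [max_eq_left (by linarith)]
    nlinarith

/-- the genus of a rational function field -/
theorem rrGenus_rat {U : F} (hU : Transcendental K U) (htop : K⟮U⟯ = ⊤) : rrGenus K F = 0 := by
  have hdeg : Divisor.degree (poleDiv K U) = 1 := by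
    rw [degree_poleDiv hU, htop, IntermediateField.finrank_top]
    rfl
  have key : ∀ n : ℕ, (ell (n • poleDiv K U) : ℤ) = n + 1 := by
    intro n
    apply le_antisymm
    · have h1 : (0 : Divisor K F) ≤ n • poleDiv K U := by
        apply nsmul_nonneg
        intro v
        rw [poleDiv_apply]
        exact le_max_right _ _
      have h2 := ell_le_degree_add_one h1
      rw [map_nsmul, hdeg, nsmul_eq_mul, mul_one] at h2
      exact h2
    · have hmem : ∀ p ∈ degreeLT K (n + 1), aeval U p ∈ riemannRochSpace (n • poleDiv K U) := by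
        intro p hp
        rw [mem_degreeLT] at hp
        rcases eq_or_ne p 0 with rfl | hp0
        · rw [map_zero]; exact zero_mem _
        have h1 : p.natDegree < n + 1 := (natDegree_lt_iff_degree_lt hp0).2 hp
        rw [aeval_eq_sum_range' h1]
        refine Submodule.sum_mem _ fun i hi => Submodule.smul_mem _ _ (pow_mem_L ?_)
        rw [Finset.mem_range] at hi
        omega
      let φ : degreeLT K (n + 1) →ₗ[K] riemannRochSpace (n • poleDiv K U) :=
        { toFun := fun p => ⟨aeval U (p : K[X]), hmem _ p.2⟩
          map_add' := fun p q => Subtype.ext (map_add (aeval U) (p : K[X]) q)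
          map_smul' := fun c p => Subtype.ext (map_smul (aeval U) c (p : K[X])) }
      have hφ : Function.Injective φ := by
        intro p q hpq
        apply Subtype.ext
        have h1 : aeval U (p : K[X]) = aeval U (q : K[X]) := congrArg Subtype.val hpq
        exact transcendental_iff_injective.1 hU h1
      have h2 := LinearMap.finrank_le_finrank_of_injective hφ
      rw [(degreeLTEquiv K (n + 1)).finrank_eq, Module.finrank_fintype_fun_eq_card,
        Fintype.card_fin] at h2
      have h3 : ell (n • poleDiv K U) = finrank K (riemannRochSpace (n • poleDiv K U)) := rfl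
      rw [h3]
      exact_mod_cast h2
  have h := rrGenus_unique' (K := K) (F := F) (g := 0) (D := poleDiv K U) (by rw [hdeg]; norm_num)
    ⟨0, fun m _ => by rw [key, hdeg]; ring⟩
  exact_mod_cast h.symm

/-- a divisor of degree zero on a curve of genus zero is principal -/
theorem exists_fun_of_genus_zero (h : rrGenus K F = 0) {D : Divisor K F}
    (hD : Divisor.degree D = 0) : ∃ z : F, z ≠ 0 ∧ ∀ v : Place K F, v.ord z = D v := by
  classical
  have h1 := riemann (-D)
  rw [map_neg, hD, h, Nat.cast_zero] at h1
  obtain ⟨z, hz0, hz⟩ := exists_ne_zero_of_ell_pos (D := -D) (by linarith)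
  refine ⟨z, hz0, fun v => ?_⟩
  have hge : ∀ v, D v ≤ v.ord z := by
    intro v
    have := (mem_L.1 hz v).le_ord hz0
    rwa [Finsupp.neg_apply, neg_neg] at this
  by_contra hne
  have hlt : D v + 1 ≤ v.ord z := by
    have := hge v
    omega
  have h2 : D + Finsupp.single v 1 ≤ divisor K z := by
    intro w
    rw [Finsupp.add_apply, divisor_apply, Finsupp.single_apply]
    split_ifs with hw
    · rw [← hw]; exact hlt
    · rw [add_zero]; exact hge w
  have h3 := degree_mono h2
  rw [map_add, hD, degree_single', degree_divisor] at h3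
  norm_num at h3

theorem exists_const_of_ord {x : F} (h : ∀ v : Place K F, v.ord x = 0) :
    ∃ a : K, algebraMap K F a = x := by
  apply mem_range_of_isAlgebraic
  by_contra hx
  obtain ⟨v, hv⟩ := RR.exists_pole hx
  rw [h v] at hv
  exact lt_irrefl _ hv

end Rat

section Norm

variable {K L F : Type*} [Field K] [IsAlgClosed K] [CharZero K] [Field L] [Field F] [Algebra K L]
  [Algebra K F] [Algebra L F] [IsScalarTower K L F] [FunField K L] [FunField K F]
  [FiniteDimensional L F] [Algebra.IsSeparable L F]

/-- norms to a field of genus zero -/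
theorem norm_eq_pow (hg : rrGenus K L = 0) {m : ℕ} (hm : m ≠ 0) {f : F} (hf : f ≠ 0)
    (h : ∀ v : Place K F, (m : ℤ) ∣ v.ord f) :
    ∃ (c : K) (z : L), c ≠ 0 ∧ z ≠ 0 ∧ Algebra.norm L f = algebraMap K L c * z ^ m := by
  haveI : HasPrincipalDivisors K F := hasPrincipalDivisors'
  obtain ⟨D, hD⟩ := Nod.exists_divisor hm hf h
  have hdeg : Divisor.degree D = 0 := Nod.degree_eq_zero_of hm hD
  have hpush : Divisor.degree (Divisor.pushforward L D) = 0 := by
    rw [Divisor.degree_pushforward, hdeg]
  obtain ⟨z, hz0, hz⟩ := exists_fun_of_genus_zero hg hpush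
  have hn0 : Algebra.norm L f ≠ 0 := Algebra.norm_ne_zero_iff.2 hf
  have hord : ∀ w : Place K L, w.ord (Algebra.norm L f) = m * w.ord z := by
    intro w
    have h1 := (Spec.pushforwardNormFormula' (K := K) (F := L) (F' := F)) f hf (m • D) (by
      intro v
      rw [Finsupp.smul_apply, nsmul_eq_mul, hD]) w
    rw [← h1, map_nsmul, Finsupp.smul_apply, nsmul_eq_mul, hz]
  obtain ⟨c, hc⟩ := exists_const_of_ord (K := K) (x := Algebra.norm L f / z ^ m) (by
    intro w
    rw [ord_div w hn0 (pow_ne_zero _ hz0), ord_pow, hord, sub_self])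
  have hzm : z ^ m ≠ 0 := pow_ne_zero _ hz0
  refine ⟨c, z, ?_, hz0, ?_⟩
  · rintro rfl
    rw [map_zero] at hc
    exact div_ne_zero hn0 hzm hc.symm
  · rw [hc, div_mul_cancel₀ _ hzm]

end Norm

end Fermat.Agent.RlG
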