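import Fermat.Agent.RlG.NormV

/-!
# The Gauss valuation on a rational subfield
-/

set_option autoImplicit false
set_option linter.unusedSectionVars false
set_option linter.style.haveILetI false

namespace Fermat.Agent.RlG

open Fermat.Agent.Car Module Polynomial IntermediateField

variable {A K F k κ : Type*} [CommRing A] [IsDomain A] [IsDiscreteValuationRing A] [Field K]
  [Algebra A K] [IsFractionRing A K] [Field F] [Algebra K F] [Field k] [Algebra A k] [Field κ]
  [Algebra k κ]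

theorem exists_prim {p : A} (hp : algebraMap A k p = 0)
    (hd : ∀ a : A, algebraMap A k a = 0 → ∃ b, a = p * b) {P : A[X]} (h : P ≠ 0) :
    ∃ (n : ℕ) (P₀ : A[X]), P₀.map (algebraMap A k) ≠ 0 ∧ P = C p ^ n * P₀ := by
  have hu : ¬ IsUnit (C p : A[X]) := fun hu =>
    ((isUnit_C.1 hu).map (algebraMap A k)).ne_zero hp
  have hfin : FiniteMultiplicity (C p) P := FiniteMultiplicity.of_not_isUnit hu h
  obtain ⟨c, hc, hc'⟩ := hfin.exists_eq_pow_mul_and_not_dvd
  refine ⟨_, c, fun h0 => hc' ?_, hc⟩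
  rw [C_dvd_iff_dvd_coeff]
  intro i
  have h1 := congrArg (fun q => q.coeff i) h0
  simp only [coeff_map, coeff_zero] at h1
  obtain ⟨b, hb⟩ := hd _ h1
  exact ⟨b, hb⟩

theorem exists_primK {p : A} (hp0 : p ≠ 0) (hp : algebraMap A k p = 0)
    (hd : ∀ a : A, algebraMap A k a = 0 → ∃ b, a = p * b)
    {P : K[X]} (h : P ≠ 0) :
    ∃ (n : ℤ) (d : A) (P₀ : A[X]), algebraMap A k d ≠ 0 ∧ P₀.map (algebraMap A k) ≠ 0 ∧
      C (algebraMap A K d) * P = C (algebraMap A K p ^ n) * P₀.map (algebraMap A K) := by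
  obtain ⟨b, hbm, hb⟩ := IsLocalization.integerNormalization_spec (nonZeroDivisors A) P
  have hinj := IsFractionRing.injective A K
  have hb0 : (b : A) ≠ 0 := nonZeroDivisors.ne_zero hbm
  have hn0 : IsLocalization.integerNormalization (nonZeroDivisors A) P ≠ 0 := by
    intro h0
    rw [h0, Polynomial.map_zero] at hb
    have h2 : algebraMap A K (b : A) ≠ 0 := by
      rwa [Ne, map_eq_zero_iff _ hinj]
    have h3 : (C (algebraMap A K (b : A))) * P = 0 := by
      rw [hb, ← Polynomial.smul_eq_C_mul]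
      rw [algebraMap_smul]
    rcases mul_eq_zero.1 h3 with h4 | h4
    · exact h2 (C_eq_zero.1 h4)
    · exact h h4
  obtain ⟨n, P₀, h1, h2⟩ := exists_prim hp hd hn0
  have hu : ¬ IsUnit p := fun hu => (hu.map (algebraMap A k)).ne_zero hp
  have hfin : FiniteMultiplicity p (b : A) := FiniteMultiplicity.of_not_isUnit hu hb0
  obtain ⟨c, hc, hc'⟩ := hfin.exists_eq_pow_mul_and_not_dvd
  set j := multiplicity p (b : A) with hj
  have hpK : algebraMap A K p ≠ 0 := by rwa [Ne, map_eq_zero_iff _ hinj]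
  refine ⟨(n : ℤ) - j, c, P₀, fun h0 => hc' ?_, h1, ?_⟩
  · obtain ⟨b', hb'⟩ := hd _ h0
    exact ⟨b', hb'⟩
  have h3 : (IsLocalization.integerNormalization (nonZeroDivisors A) P).map (algebraMap A K) =
      C (algebraMap A K (b : A)) * P := by
    rw [hb, ← Polynomial.smul_eq_C_mul, algebraMap_smul]
  rw [h2, Polynomial.map_mul, Polynomial.map_pow, map_C, hc, map_mul, map_pow] at h3
  have h4 : (C (algebraMap A K p) : K[X]) ^ j ≠ 0 := pow_ne_zero _ (by rwa [Ne, C_eq_zero])
  apply mul_left_cancel₀ h4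
  rw [zpow_sub₀ hpK, zpow_natCast, zpow_natCast]
  have h5 : (C (algebraMap A K p) : K[X]) ^ j * (C (algebraMap A K c) * P) =
      C (algebraMap A K p ^ j * algebraMap A K c) * P := by
    rw [C_mul, C_pow]; ring
  rw [h5, ← h3, ← C_pow, ← C_pow, ← mul_assoc, ← C_mul, mul_div_cancel₀ _ (pow_ne_zero _ hpK)]

variable (C' : Comp F κ)

/-- the base of a component -/
structure Base (A K k : Type*) [CommRing A] [Field K] [Algebra A K] [Algebra K F] [Field k]
    [Algebra A k] [Algebra k κ] (C' : Comp F κ) (p : A) : Prop where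
  ne : p ≠ 0
  red : algebraMap A k p = 0
  hd : ∀ a : A, algebraMap A k a = 0 → ∃ b, a = p * b
  ϖ : algebraMap K F (algebraMap A K p) = C'.ϖ
  mem : ∀ a : A, algebraMap K F (algebraMap A K a) ∈ C'.W
  r : ∀ a : A, C'.r (algebraMap K F (algebraMap A K a)) = algebraMap k κ (algebraMap A k a)

variable {C'} {p : A} (B : Base A K k C' p) {U : F} (hU : U ∈ C'.W)
  (hU0 : Transcendental k (C'.r U))

include B hU in
theorem aeval_mem (P : A[X]) : aeval U (P.map (algebraMap A K)) ∈ C'.W ∧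
    C'.r (aeval U (P.map (algebraMap A K))) = aeval (C'.r U) (P.map (algebraMap A k)) := by
  induction P using Polynomial.induction_on' with
  | add P Q h1 h2 =>
    rw [Polynomial.map_add, Polynomial.map_add, map_add, map_add]
    exact ⟨add_mem h1.1 h2.1, by rw [Comp.r_add h1.1 h2.1, h1.2, h2.2]⟩
  | monomial n a =>
    rw [map_monomial, map_monomial, aeval_monomial, aeval_monomial]
    exact ⟨mul_mem (B.mem a) (pow_mem hU n), by
      rw [Comp.r_mul (B.mem a) (pow_mem hU n), Comp.r_pow hU, B.r]⟩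

include B hU hU0 in
/-- values of polynomials -/
theorem exists_aeval {P : K[X]} (hP : P ≠ 0) : ∃ (n : ℤ) (u : F), C'.v u = 0 ∧ u ≠ 0 ∧
    aeval U P = C'.ϖ ^ n * u ∧ C'.r u ∈ k⟮C'.r U⟯ := by
  obtain ⟨n, d, P₀, hd, hP₀, h⟩ := exists_primK B.ne B.red B.hd hP
  have h1 := aeval_mem B hU P₀
  have hr : C'.r (aeval U (P₀.map (algebraMap A K))) ≠ 0 := by
    rw [h1.2]
    intro h0
    exact hP₀ ((transcendental_iff.1 hU0) _ h0)
  have hne : aeval U (P₀.map (algebraMap A K)) ≠ 0 := by
    intro h0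
    rw [h0, Comp.r_zero] at hr
    exact hr rfl
  have hv := (Comp.r_ne_zero_iff hne).1 hr
  have hdr : C'.r (algebraMap K F (algebraMap A K d)) ≠ 0 := by
    rw [B.r, Ne, map_eq_zero]; exact hd
  have hdne : algebraMap K F (algebraMap A K d) ≠ 0 := by
    intro h0
    rw [h0, Comp.r_zero] at hdr
    exact hdr rfl
  have hdv := (Comp.r_ne_zero_iff hdne).1 hdr
  refine ⟨n, aeval U (P₀.map (algebraMap A K)) / algebraMap K F (algebraMap A K d), ?_,
    div_ne_zero hne hdne, ?_, ?_⟩
  · rw [C'.v_div hne hdne, hv, hdv, sub_zero]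
  · have h2 := congrArg (aeval U) h
    rw [map_mul, map_mul, aeval_C, aeval_C, map_zpow₀, B.ϖ] at h2
    rw [mul_div_assoc', ← h2, mul_div_cancel_left₀ _ hdne]
  · rw [Comp.r_div h1.1 hdv, h1.2, B.r]
    refine div_mem ?_ (IntermediateField.algebraMap_mem _ _)
    exact algebra_adjoin_le_adjoin k _ (aeval_mem_adjoin_singleton k _)

include B hU hU0 in
/-- residues of elements of `K(U)` -/
theorem r_mem {a : F} (ha : a ∈ K⟮U⟯) (haW : a ∈ C'.W) : C'.r a ∈ k⟮C'.r U⟯ := by
  rcases eq_or_ne a 0 with rfl | ha0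
  · rw [Comp.r_zero]; exact zero_mem _
  obtain ⟨P, Q, rfl⟩ := (mem_adjoin_simple_iff K a).1 ha
  have hQ : Q ≠ 0 := by rintro rfl; simp at ha0
  have hP : P ≠ 0 := by rintro rfl; simp at ha0
  obtain ⟨n, u, hu, hu0, e, hum⟩ := exists_aeval B hU hU0 hP
  obtain ⟨n', u', hu', hu0', e', hum'⟩ := exists_aeval B hU hU0 hQ
  have e1 : aeval U P / aeval U Q = C'.ϖ ^ (n - n') * (u / u') := by
    rw [e, e', zpow_sub₀ C'.ne, mul_div_mul_comm]
  have hv : C'.v (aeval U P / aeval U Q) = n - n' := by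
    rw [e1, C'.v_mul (zpow_ne_zero _ C'.ne) (div_ne_zero hu0 hu0'), C'.v_zpow, C'.v_ϖ,
      C'.v_div hu0 hu0', hu, hu']
    ring
  have h0 := (C'.mem_iff.1 haW).resolve_left ha0
  rw [hv] at h0
  rcases h0.lt_or_eq with h1 | h1
  · rw [(Comp.r_eq_zero_iff haW).2 (Comp.ge_of_le (by rw [hv]; omega))]
    exact zero_mem _
  · rw [e1, ← h1, zpow_zero, one_mul, Comp.r_div (Comp.mem_of_v hu.ge) hu']
    exact div_mem hum hum'

include B hU hU0 in
/-- lifts of independent families are orthonormal -/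
theorem onf_of {ι : Type*} [Fintype ι] {e : ι → F} (he : ∀ i, e i ∈ C'.W)
    (hli : LinearIndependent k⟮C'.r U⟯ (fun i => C'.r (e i))) : ONF K⟮U⟯ C' e where
  mem := he
  ind a ha h i := by
    have h1 : C'.r (∑ i, algebraMap K⟮U⟯ F (a i) * e i) =
        ∑ i, C'.r (algebraMap K⟮U⟯ F (a i)) * C'.r (e i) := by
      have : ∀ s : Finset ι, C'.r (∑ i ∈ s, algebraMap K⟮U⟯ F (a i) * e i) =
          ∑ i ∈ s, C'.r (algebraMap K⟮U⟯ F (a i)) * C'.r (e i) := by
        classical
        intro s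
        induction s using Finset.induction_on with
        | empty => simp
        | insert j s hj ih =>
          rw [Finset.sum_insert hj, Finset.sum_insert hj, Comp.r_add (mul_mem (ha j) (he j))
            (sum_mem fun i _ => mul_mem (ha i) (he i)), Comp.r_mul (ha j) (he j), ih]
      exact this _
    rw [h1] at h
    have h2 := Fintype.linearIndependent_iff.1 hli
      (fun i => ⟨C'.r (algebraMap K⟮U⟯ F (a i)), r_mem B hU hU0 (a i).2 (ha i)⟩) (by
        rw [← h]
        refine Finset.sum_congr rfl fun i _ => ?_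
        rw [Algebra.smul_def]
        rfl) i
    exact congrArg Subtype.val h2

end Fermat.Agent.RlG
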