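import Fermat.Agent.Car.Comp

/-!
# Norms and valuations with an orthonormal basis
-/

set_option autoImplicit false
set_option linter.unusedSectionVars false
set_option linter.style.haveILetI false

namespace Fermat.Agent.RlG

open Fermat.Agent.Car Module

variable {F κ L : Type*} [Field F] [Field κ] [Field L] [Algebra L F] {C : Comp F κ}
  {ι : Type*} [Fintype ι]

variable (L C) in
/-- families with independent reductions -/
structure ONF (e : ι → F) : Prop where
  mem : ∀ i, e i ∈ C.W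
  ind : ∀ a : ι → L, (∀ i, algebraMap L F (a i) ∈ C.W) →
    C.r (∑ i, algebraMap L F (a i) * e i) = 0 → ∀ i, C.r (algebraMap L F (a i)) = 0

namespace ONF

variable {e : ι → F} (he : ONF L C e) {ϖL : L} (hϖ : algebraMap L F ϖL = C.ϖ)

include he hϖ in
theorem min_combo {a : ι → L} (ha : a ≠ 0) :
    ∃ i₀, a i₀ ≠ 0 ∧ (∀ i, a i ≠ 0 → C.v (algebraMap L F (a i₀)) ≤ C.v (algebraMap L F (a i))) ∧
      ∑ i, algebraMap L F (a i) * e i ≠ 0 ∧
      C.v (∑ i, algebraMap L F (a i) * e i) = C.v (algebraMap L F (a i₀)) := by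
  classical
  have hne : (Finset.univ.filter fun i => a i ≠ 0).Nonempty := by
    by_contra hcon
    rw [Finset.not_nonempty_iff_eq_empty, Finset.filter_eq_empty_iff] at hcon
    apply ha
    funext i
    have := hcon (Finset.mem_univ i)
    push Not at this
    exact this
  obtain ⟨i₀, hi₀, hmin⟩ := Finset.exists_min_image _ (fun i => C.v (algebraMap L F (a i))) hne
  rw [Finset.mem_filter] at hi₀
  have hmin' : ∀ i, a i ≠ 0 → C.v (algebraMap L F (a i₀)) ≤ C.v (algebraMap L F (a i)) :=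
    fun i hi => hmin i (Finset.mem_filter.2 ⟨Finset.mem_univ _, hi⟩)
  have hinj := (algebraMap L F).injective
  have ha0 : algebraMap L F (a i₀) ≠ 0 := by
    rw [Ne, map_eq_zero_iff _ hinj]; exact hi₀.2
  set n := C.v (algebraMap L F (a i₀)) with hn
  have hϖL : ϖL ≠ 0 := by
    rintro rfl
    rw [map_zero] at hϖ
    exact C.ne hϖ.symm
  let b : ι → L := fun i => ϖL ^ (-n) * a i
  have hb : ∀ i, algebraMap L F (b i) = C.ϖ ^ (-n) * algebraMap L F (a i) := by
    intro i
    simp only [b]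
    rw [map_mul, map_zpow₀, hϖ]
  have hbW : ∀ i, algebraMap L F (b i) ∈ C.W := by
    intro i
    rw [hb, ← Comp.Ge.iff_zpow]
    rcases eq_or_ne (a i) 0 with h | h
    · left; rw [h, map_zero]
    · right; exact hmin' i h
  have hb0 : C.r (algebraMap L F (b i₀)) ≠ 0 := by
    rw [Comp.r_ne_zero_iff (by rw [hb]; exact mul_ne_zero (zpow_ne_zero _ C.ne) ha0), hb,
      C.v_mul (zpow_ne_zero _ C.ne) ha0, C.v_zpow, C.v_ϖ]
    omega
  have hsumW : ∑ i, algebraMap L F (b i) * e i ∈ C.W :=
    sum_mem fun i _ => mul_mem (hbW i) (he.mem i)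
  have hr : C.r (∑ i, algebraMap L F (b i) * e i) ≠ 0 := fun h => hb0 (he.ind b hbW h i₀)
  have hS0 : ∑ i, algebraMap L F (b i) * e i ≠ 0 := by
    intro h
    rw [h, Comp.r_zero] at hr
    exact hr rfl
  have hSv : C.v (∑ i, algebraMap L F (b i) * e i) = 0 := (Comp.r_ne_zero_iff hS0).1 hr
  have hS : ∑ i, algebraMap L F (a i) * e i = C.ϖ ^ n * ∑ i, algebraMap L F (b i) * e i := by
    rw [Finset.mul_sum]
    refine Finset.sum_congr rfl fun i _ => ?_
    rw [hb, zpow_neg]
    field_simp [zpow_ne_zero n C.ne]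
  refine ⟨i₀, hi₀.2, hmin', ?_, ?_⟩
  · rw [hS]
    exact mul_ne_zero (zpow_ne_zero _ C.ne) hS0
  · rw [hS, C.v_mul (zpow_ne_zero _ C.ne) hS0, hSv, C.v_zpow, C.v_ϖ]
    omega

include he hϖ in
theorem coord_mem {a : ι → L} (h : ∑ i, algebraMap L F (a i) * e i ∈ C.W) (i : ι) :
    algebraMap L F (a i) ∈ C.W := by
  rcases eq_or_ne a 0 with rfl | ha
  · rw [Pi.zero_apply, map_zero]; exact zero_mem _
  obtain ⟨i₀, h0, hmin, hne, hv⟩ := he.min_combo hϖ ha
  rcases eq_or_ne (a i) 0 with hi | hi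
  · rw [hi, map_zero]; exact zero_mem _
  apply Comp.mem_of_v
  refine le_trans ?_ (hmin i hi)
  rw [← hv]
  exact (C.mem_iff.1 h).resolve_left hne

include he hϖ in
theorem linearIndependent : LinearIndependent L e := by
  rw [Fintype.linearIndependent_iff]
  intro a ha
  by_contra hcon
  push Not at hcon
  obtain ⟨i, hi⟩ := hcon
  have ha' : a ≠ 0 := fun h => hi (congrFun h i)
  obtain ⟨i₀, -, -, hne, -⟩ := he.min_combo hϖ ha'
  apply hne
  rw [← ha]
  exact Finset.sum_congr rfl fun i _ => (Algebra.smul_def _ _).symm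

include he hϖ in
theorem norm_mem [Nonempty ι] (hcard : Fintype.card ι = finrank L F) {f : F} (hf : f ∈ C.W) :
    algebraMap L F (Algebra.norm L f) ∈ C.W := by
  classical
  let B : Basis ι L F := basisOfLinearIndependentOfCardEqFinrank (he.linearIndependent hϖ) hcard
  have hB : ∀ i, B i = e i := fun i => by
    simp only [B, coe_basisOfLinearIndependentOfCardEqFinrank]
  let R : Subring L := C.W.comap (algebraMap L F)
  have hent : ∀ i j, Algebra.leftMulMatrix B f i j ∈ R := by
    intro i j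
    change algebraMap L F _ ∈ C.W
    have h1 : ∑ i, algebraMap L F (Algebra.leftMulMatrix B f i j) * e i = f * e j := by
      have h2 := B.sum_repr (f * B j)
      rw [hB] at h2
      rw [← h2]
      refine Finset.sum_congr rfl fun i _ => ?_
      rw [Algebra.leftMulMatrix_eq_repr_mul, Algebra.smul_def, hB, hB]
    exact he.coord_mem hϖ (a := fun i => Algebra.leftMulMatrix B f i j)
      (by rw [h1]; exact mul_mem hf (he.mem j)) i
  let M' : Matrix ι ι R := fun i j => ⟨Algebra.leftMulMatrix B f i j, hent i j⟩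
  have hdet : Algebra.norm L f = R.subtype M'.det := by
    rw [Algebra.norm_eq_matrix_det B, RingHom.map_det]
    rfl
  rw [hdet]
  exact M'.det.2

include he hϖ in
/-- **the valuation of the norm** -/
theorem v_norm [Nonempty ι] (hcard : Fintype.card ι = finrank L F) {f : F} (hf : f ≠ 0) :
    C.v (algebraMap L F (Algebra.norm L f)) = finrank L F * C.v f := by
  haveI : FiniteDimensional L F := by
    apply FiniteDimensional.of_finrank_pos
    rw [← hcard]
    exact Fintype.card_pos
  have hn0 : ∀ {g : F}, g ≠ 0 → algebraMap L F (Algebra.norm L g) ≠ 0 := by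
    intro g hg
    rw [Ne, map_eq_zero_iff _ (algebraMap L F).injective]
    exact Algebra.norm_ne_zero_iff.2 hg
  have key : ∀ g : F, g ≠ 0 → C.v g = 0 → C.v (algebraMap L F (Algebra.norm L g)) = 0 := by
    intro g hg hv
    have h1 := he.norm_mem hϖ hcard (f := g) (Comp.mem_of_v hv.ge)
    have h2 := he.norm_mem hϖ hcard (f := g⁻¹) (Comp.mem_of_v (by rw [C.v_inv, hv, neg_zero]))
    have h3 : algebraMap L F (Algebra.norm L g⁻¹) = (algebraMap L F (Algebra.norm L g))⁻¹ := by
      apply eq_inv_of_mul_eq_one_right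
      rw [← map_mul, ← map_mul, mul_inv_cancel₀ hg, map_one, map_one]
    rw [h3] at h2
    have h4 := (C.mem_iff.1 h1).resolve_left (hn0 hg)
    have h5 := (C.mem_iff.1 h2).resolve_left (inv_ne_zero (hn0 hg))
    rw [C.v_inv] at h5
    omega
  have hg : C.ϖ ^ (-(C.v f)) * f ≠ 0 := mul_ne_zero (zpow_ne_zero _ C.ne) hf
  have h1 := key _ hg (by
    rw [C.v_mul (zpow_ne_zero _ C.ne) hf, C.v_zpow, C.v_ϖ]; ring)
  rw [map_mul, map_mul] at h1
  have hz : C.ϖ ^ (-(C.v f)) = algebraMap L F (ϖL ^ (-(C.v f))) := by rw [map_zpow₀, hϖ]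
  have e1 : algebraMap L F (Algebra.norm L (C.ϖ ^ (-(C.v f)))) =
      (C.ϖ ^ (-(C.v f))) ^ finrank L F := by
    rw [hz, Algebra.norm_algebraMap, map_pow]
  rw [e1, C.v_mul (pow_ne_zero _ (zpow_ne_zero _ C.ne)) (hn0 hf), C.v_pow, C.v_zpow, C.v_ϖ] at h1
  linarith

end ONF

end Fermat.Agent.RlG
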