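import Fermat.Agent.E2.Main2
import Fermat.Agent.RlG.NormU
import Fermat.Agent.RlG.NormK
import Fermat.Agent.RlG.NormB
import Fermat.Agent.RlG.DescP

/-!
# The degree of the modular unit
-/

set_option autoImplicit false
set_option linter.unusedSectionVars false
set_option linter.style.haveILetI false

open scoped MatrixGroups
open Module Fermat.Agent.KumG Fermat.Agent.Cov ModularCurve Fermat.Agent.ModPoly Fermat.Agent.GamH
  Polynomial IntermediateField Fermat.Agent.RedMod Fermat.Agent.Red AlgebraicCurve Fermat.Agent.RR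
  Fermat.Agent.SSH Fermat.Agent.SemiSt Fermat.Agent.Nod Fermat.Agent.Curve Fermat.Agent.E2

namespace Fermat.Agent.RlG

noncomputable section

attribute [local instance 10000] fastAlg

section Deg

variable {A₀ K₀ A K k : Type*} [CommRing A₀] [IsDomain A₀] [IsDiscreteValuationRing A₀] [Field K₀]
  [CharZero K₀] [Algebra ℚ K₀]
  [Algebra A₀ K₀] [IsFractionRing A₀ K₀] [CommRing A] [IsDomain A] [ValuationRing A]
  [Field K] [IsAlgClosed K] [CharZero K] [Algebra ℚ K] [Algebra A K] [IsFractionRing A K]
  [Field k] [IsAlgClosed k] [Algebra A k] [Algebra A₀ k] [Algebra K₀ K]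
  {q M : ℕ} [hq : Fact q.Prime] [NeZero M]
  {H : Subgroup (ZMod M)ˣ} [hH : Fact ((-1 : (ZMod M)ˣ) ∈ H)] [CharP k q] [PerfectRing k q]
  [Algebra.IsAlgebraic K₀ K] (s : Set2 A₀ K₀ A K k q M H)
  [FunField k (FH k M H)] [FunField K (FG (GH M H) K)] [FunField K (FG (Gq q M H) K)]

/-- orders of the modular unit at the cusps -/
theorem ord_UK (v : Place K (FG (Gq q M H) K)) (hv : v.ord s.toSetting.S.jq < 0) :
    v.ord (Set2.UK K q M H) =
      v.ord (s.toSetting.S.be s.toSetting.S.jM) - v.ord s.toSetting.S.jq := by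
  haveI := funField_FF (k := K) (M := q * M) (natCast_ne_zero_K K (q * M))
  have e1 := s.toSetting.S.incl_jF (hle_Gq (H := H) K)
  have e2 := s.toSetting.S.incl_qe_jF (hle_Gq (H := H) K)
  rw [← e1, ← e2]
  rw [← e1] at hv
  obtain ⟨u, m, hm, h⟩ := RR.exists_restrict (inclusion (hle_Gq (H := H) K)) v
    (j := jF' K (q * M)) hv.ne
  have hj0 : jF' K (q * M) ≠ 0 := Cusp.jF_ne_zero
  have hq0 : qe K q M (jF' K M) ≠ 0 := by
    intro h0
    have := (qe K q M).toRingHom.injective (h0.trans (map_zero _).symm)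
    exact Cusp.jF_ne_zero this
  have hu : u.ord (jF' K (q * M)) < 0 := by
    rw [h _ hj0] at hv
    by_contra hcon
    push Not at hcon
    have := mul_nonneg hm.le hcon
    linarith
  rw [Set2.UK, v.ord_inv, h _ (PRem.rF_ne_zero (K := K) (q := q) (M := M)), h _ hj0, h _ hq0,
    ord_rF u hu]
  ring

theorem ord_UK_zero (v : Place K (FG (Gq q M H) K)) (hv : 0 ≤ v.ord s.toSetting.S.jq) :
    v.ord (Set2.UK K q M H) = 0 := by
  obtain ⟨h1, h2⟩ := s.reg_UK
  have h0 : Set2.UK K q M H ≠ 0 := by
    rw [← s.emb_U]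
    intro h
    exact s.U_ne ((emb K₀ K (Gq q M H)).injective (h.trans (map_zero _).symm))
  have h3 := (h1 v hv).le_ord h0
  have h4 := (h2 v hv).le_ord (inv_ne_zero h0)
  rw [v.ord_inv] at h4
  omega

include s in
theorem UK_ne : Set2.UK K q M H ≠ 0 := by
  rw [← s.emb_U]
  intro h
  exact s.U_ne ((emb K₀ K (Gq q M H)).injective (h.trans (map_zero _).symm))

/-- there is a cusp -/
theorem exists_cusp : ∃ v : Place K (FG (Gq q M H) K), v.ord s.toSetting.S.jq < 0 :=
  RR.exists_pole s.toSetting.S.trans_jq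

include s in
theorem trans_UK : Transcendental K (Set2.UK K q M H) := by
  obtain ⟨v, hv⟩ := exists_cusp s
  apply Curve.transcendental_of_ord_ne_zero v
  have hq1 : (1 : ℤ) < q := by exact_mod_cast hq.out.one_lt
  rw [ord_UK s v hv]
  rcases s.toSetting.pol.cases v hv with h1 | ⟨h1, -⟩
  · intro h
    rw [h1] at h hv
    nlinarith
  · intro h
    rw [h1] at h
    nlinarith

/-- the divisor of poles of the modular unit -/
theorem pole_UK (v : Place K (FG (Gq q M H) K)) :
    ((q : ℤ) + 1) * max (-v.ord (Set2.UK K q M H)) 0 =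
      q * max (-v.ord (s.toSetting.S.be s.toSetting.S.jM)) 0 -
        max (-v.ord s.toSetting.S.jq) 0 := by
  have hq1 : (1 : ℤ) < q := by exact_mod_cast hq.out.one_lt
  rcases le_or_gt 0 (v.ord s.toSetting.S.jq) with h | h
  · have h1 := s.toSetting.pol.reg v h
    rw [ord_UK_zero s v h, max_eq_right (by omega), max_eq_right (by omega),
      max_eq_right (by omega)]
    ring
  · rw [ord_UK s v h]
    rcases s.toSetting.pol.cases v h with h1 | ⟨h1, -⟩
    · set b := v.ord (s.toSetting.S.be s.toSetting.S.jM) with hb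
      rw [h1] at h ⊢
      have hb0 : b < 0 := by nlinarith
      rw [max_eq_right (by nlinarith), max_eq_left (by omega), max_eq_left (by nlinarith)]
      ring
    · set a := v.ord s.toSetting.S.jq with ha
      rw [h1, max_eq_left (by nlinarith), max_eq_left (by nlinarith), max_eq_left (by omega)]
      ring

theorem zero_UK (v : Place K (FG (Gq q M H) K)) :
    ((q : ℤ) + 1) * max (v.ord (Set2.UK K q M H)) 0 =
      q * max (-v.ord s.toSetting.S.jq) 0 -
        max (-v.ord (s.toSetting.S.be s.toSetting.S.jM)) 0 := by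
  have hq1 : (1 : ℤ) < q := by exact_mod_cast hq.out.one_lt
  rcases le_or_gt 0 (v.ord s.toSetting.S.jq) with h | h
  · have h1 := s.toSetting.pol.reg v h
    rw [ord_UK_zero s v h, max_eq_right (by omega), max_eq_right (by omega),
      max_eq_right (by omega)]
    ring
  · rw [ord_UK s v h]
    rcases s.toSetting.pol.cases v h with h1 | ⟨h1, -⟩
    · set b := v.ord (s.toSetting.S.be s.toSetting.S.jM) with hb
      rw [h1] at h ⊢
      have hb0 : b < 0 := by nlinarith
      rw [max_eq_left (by nlinarith), max_eq_left (by nlinarith), max_eq_left (by omega)]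
      ring
    · set a := v.ord s.toSetting.S.jq with ha
      rw [h1, max_eq_right (by nlinarith), max_eq_left (by omega), max_eq_left (by nlinarith)]
      ring

include s in
theorem finrank_UK : (finrank K⟮Set2.UK K q M H⟯ (FG (Gq q M H) K) : ℤ) =
    ((q : ℤ) - 1) * Fintype.card (Fin (dedekindPsi M) × Fin H.index) := by
  have hq1 : (1 : ℤ) < q := by exact_mod_cast hq.out.one_lt
  have e1 : (q + 1) • poleDiv K (Set2.UK K q M H) + poleDiv K s.toSetting.S.jq =
      q • poleDiv K (s.toSetting.S.be s.toSetting.S.jM) := by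
    ext v
    have := pole_UK s v
    rw [Finsupp.add_apply, Finsupp.smul_apply, Finsupp.smul_apply, poleDiv_apply, poleDiv_apply,
      poleDiv_apply, nsmul_eq_mul, nsmul_eq_mul]
    push_cast
    linarith
  have e2 : (q + 1) • zeroDiv K (Set2.UK K q M H) +
      poleDiv K (s.toSetting.S.be s.toSetting.S.jM) = q • poleDiv K s.toSetting.S.jq := by
    ext v
    have := zero_UK s v
    rw [Finsupp.add_apply, Finsupp.smul_apply, Finsupp.smul_apply, poleDiv_apply, poleDiv_apply,
      zeroDiv_apply, nsmul_eq_mul, nsmul_eq_mul]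
    push_cast
    linarith
  have h1 := congrArg Divisor.degree e1
  have h2 := congrArg Divisor.degree e2
  rw [map_add, map_nsmul, map_nsmul, nsmul_eq_mul, nsmul_eq_mul,
    degree_poleDiv (trans_UK s), degree_poleDiv s.toSetting.S.trans_jq] at h1
  rw [map_add, map_nsmul, map_nsmul, nsmul_eq_mul, nsmul_eq_mul,
    degree_zeroDiv (trans_UK s), degree_poleDiv s.toSetting.S.trans_jq] at h2
  have h3 := s.toSetting.S.rkq
  have h3' : (finrank K⟮s.toSetting.S.jq⟯ (FG (Gq q M H) K) : ℤ) =
      Fintype.card (Fin (dedekindPsi M) × Fin H.index) * (q + 1) := by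
    exact_mod_cast h3
  rw [h3'] at h1 h2
  push_cast at h1 h2
  set x : ℤ := (finrank K⟮Set2.UK K q M H⟯ (FG (Gq q M H) K) : ℤ)
  set c : ℤ := (Fintype.card (Fin (dedekindPsi M) × Fin H.index) : ℤ)
  set y : ℤ := Divisor.degree (poleDiv K (s.toSetting.S.be s.toSetting.S.jM))
  have h4 : ((q : ℤ) + 1) * (y - c * (q + 1)) = 0 := by linarith
  have h5 : y = c * (q + 1) := by
    rcases mul_eq_zero.1 h4 with h | h
    · omega
    · linarith
  rw [h5] at h1
  have h6 : ((q : ℤ) + 1) * x = (q + 1) * ((q - 1) * c) := by linarith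
  exact mul_left_cancel₀ (by omega) h6

end Deg

end

end Fermat.Agent.RlG
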