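import Fermat.Agent.RlG.NormU
import Fermat.Agent.RlG.NormK
import Fermat.Agent.RlG.NormB

/-!
# The component obstruction, abstractly
-/

set_option autoImplicit false
set_option linter.unusedSectionVars false
set_option linter.style.haveILetI false

namespace Fermat.Agent.RlG

noncomputable section

open Module Polynomial IntermediateField AlgebraicCurve Fermat.Agent.RR Fermat.Agent.Curve
  Fermat.Agent.Car

theorem adjoin_gen_top {K F : Type*} [Field K] [Field F] [Algebra K F] (U : F) :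
    K⟮AdjoinSimple.gen K U⟯ = ⊤ := by
  rw [eq_top_iff]
  rintro x -
  obtain ⟨P, Q, h⟩ := (mem_adjoin_simple_iff K (x : F)).1 x.2
  rw [mem_adjoin_simple_iff]
  refine ⟨P, Q, Subtype.ext ?_⟩
  have e : ∀ P : K[X], ((aeval (AdjoinSimple.gen K U) P : K⟮U⟯) : F) = aeval U P := by
    intro P
    have := (aeval_algebraMap_apply F (AdjoinSimple.gen K U) P).symm
    rw [AdjoinSimple.algebraMap_gen] at this
    exact this
  change (x : F) = ((aeval (AdjoinSimple.gen K U) P : K⟮U⟯) : F) /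
    ((aeval (AdjoinSimple.gen K U) Q : K⟮U⟯) : F)
  rw [e, e]
  exact h

theorem trans_gen {K F : Type*} [Field K] [Field F] [Algebra K F] {U : F}
    (hU : Transcendental K U) : Transcendental K (AdjoinSimple.gen K U) := by
  intro h
  apply hU
  have := h.algebraMap (A := F)
  rwa [AdjoinSimple.algebraMap_gen] at this

theorem funField_adjoin {K F : Type*} [Field K] [IsAlgClosed K] [Field F] [Algebra K F] {U : F}
    (hU : Transcendental K U) : FunField K K⟮U⟯ := by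
  haveI : FiniteDimensional K⟮AdjoinSimple.gen K U⟯ K⟮U⟯ := by
    rw [adjoin_gen_top]
    exact FiniteDimensional.of_finrank_pos (by rw [IntermediateField.finrank_top]; norm_num)
  exact FunField.of (trans_gen hU)

theorem norm_coe_congr {K F : Type*} [Field K] [Field F] [Algebra K F]
    {L L' : IntermediateField K F} (h : L = L') (x : F) :
    ((Algebra.norm L x : L) : F) = (Algebra.norm L' x : L') := by
  subst h; rfl

variable {A₀ K₀ F₀ K F k E : Type*} [CommRing A₀] [IsDomain A₀] [IsDiscreteValuationRing A₀]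
  [Field K₀] [Algebra A₀ K₀] [IsFractionRing A₀ K₀] [Field F₀] [Algebra K₀ F₀] [Field K] [Field F]
  [Algebra K F] [Algebra K₀ K] [Field k] [Algebra A₀ k] [Field E] [Algebra k E]
  [IsAlgClosed K] [CharZero K] [FunField K F]

/-- **The component obstruction is bounded**, abstract form. -/
theorem obs_abs (D : Car.Desc K₀ F₀ K F) (C : Fin 2 → Comp F₀ E) {p : A₀}
    (hB : ∀ j, Base A₀ K₀ k (C j) p)
    (hvc : ∀ c : K₀, (C 0).v (algebraMap K₀ F₀ c) = (C 1).v (algebraMap K₀ F₀ c))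
    (U U' : F₀) (t : E) (ht : Transcendental k t) [FiniteDimensional k⟮t⟯ E]
    (h0 : (C 0).v U = 0) (h0' : (C 0).r U = t) (h1 : (C 1).v U' = 0) (h1' : (C 1).r U' = t)
    (hUU : K₀⟮U'⟯ = K₀⟮U⟯) (hU : Transcendental K₀ U)
    (hUK : Transcendental K (D.emb U)) (hdeg : finrank K⟮D.emb U⟯ F = finrank k⟮t⟯ E)
    [hfd0 : FiniteDimensional K₀⟮U⟯ F₀]
    (hsurj : ∀ b : E, ∃ x : F₀, ∀ j, x ∈ (C j).W ∧ (C j).r x = b)
    (hdesc : ∀ (g : F₀) (c' : K) (h' : F) (m : ℕ), m ≠ 0 → c' ≠ 0 → h' ≠ 0 →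
      D.emb g = algebraMap K F c' * h' ^ m →
      ∃ (c : K₀) (h₀ : F₀), c ≠ 0 ∧ h₀ ≠ 0 ∧ g = algebraMap K₀ F₀ c * h₀ ^ m) :
    ∃ C' : ℕ, 0 < C' ∧ ∀ (m : ℕ), m ≠ 0 → ∀ f : F₀, f ≠ 0 →
      (∀ v : Place K F, (m : ℤ) ∣ v.ord (D.emb f)) →
      (m : ℤ) ∣ C' * ((C 0).v f - (C 1).v f) := by
  classical
  haveI hfdK : FiniteDimensional K⟮D.emb U⟯ F := fd (K := K) hUK
  haveI hffL := funField_adjoin hUK
  have hgL : rrGenus K K⟮D.emb U⟯ = 0 := rrGenus_rat (trans_gen hUK) (adjoin_gen_top _)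
  haveI : CharZero K⟮D.emb U⟯ := charZero_of_injective_algebraMap (algebraMap K _).injective
  haveI : Algebra.IsAlgebraic K⟮D.emb U⟯ F := Algebra.IsAlgebraic.of_finite _ _
  haveI hsepL : Algebra.IsSeparable K⟮D.emb U⟯ F :=
    Algebra.IsAlgebraic.isSeparable_of_perfectField
  -- lifts of a basis
  let b := Module.finBasis k⟮t⟯ E
  obtain ⟨d, hd⟩ : ∃ d, d = finrank k⟮t⟯ E := ⟨_, rfl⟩
  have hdpos : 0 < d := by rw [hd]; exact Module.finrank_pos
  choose e he using fun i : Fin (finrank k⟮t⟯ E) => hsurj (b i)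
  haveI : Nonempty (Fin (finrank k⟮t⟯ E)) := ⟨⟨0, by rw [← hd]; exact hdpos⟩⟩
  have o0 : ONF K₀⟮U⟯ (C 0) e := by
    refine onf_of (hB 0) (Comp.mem_of_v h0.ge) (by rw [h0']; exact ht) (fun i => (he i 0).1) ?_
    rw [h0']
    have : (fun i => (C 0).r (e i)) = b := funext fun i => (he i 0).2
    rw [this]
    exact b.linearIndependent
  have o1 : ONF K₀⟮U'⟯ (C 1) e := by
    refine onf_of (hB 1) (Comp.mem_of_v h1.ge) (by rw [h1']; exact ht) (fun i => (he i 1).1) ?_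
    rw [h1']
    have : (fun i => (C 1).r (e i)) = b := funext fun i => (he i 1).2
    rw [this]
    exact b.linearIndependent
  have hϖ0 : algebraMap K₀⟮U⟯ F₀ (algebraMap K₀ K₀⟮U⟯ (algebraMap A₀ K₀ p)) = (C 0).ϖ := (hB 0).ϖ
  have hϖ1 : algebraMap K₀⟮U'⟯ F₀ (algebraMap K₀ K₀⟮U'⟯ (algebraMap A₀ K₀ p)) = (C 1).ϖ :=
    (hB 1).ϖ
  have hle : finrank K₀⟮U⟯ F₀ ≤ d := by
    have h1 := finrank_le D hU
    rwa [hdeg, ← hd] at h1
  have hge : d ≤ finrank K₀⟮U⟯ F₀ := by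
    have := (o0.linearIndependent hϖ0).fintype_card_le_finrank
    rwa [Fintype.card_fin, ← hd] at this
  have hdd : finrank K₀⟮U⟯ F₀ = d := le_antisymm hle hge
  have hdd' : finrank K₀⟮U'⟯ F₀ = d := by rw [hUU]; exact hdd
  refine ⟨d, hdpos, fun m hm f hf hdvd => ?_⟩
  have v0 := o0.v_norm hϖ0 (by rw [Fintype.card_fin, hdd, hd]) hf
  have v1 := o1.v_norm hϖ1 (by rw [Fintype.card_fin, hdd', hd]) hf
  rw [hdd] at v0
  rw [hdd'] at v1
  have hn := emb_norm D (U := U) hU (by rw [hdd, hd]; exact hdeg.symm)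
    (by rw [hdd]; exact hdpos) f
  have hf' : D.emb f ≠ 0 := by
    rwa [Ne, map_eq_zero_iff _ D.emb.injective]
  obtain ⟨c, z, hc, hz, hN⟩ := norm_eq_pow (K := K) (L := K⟮D.emb U⟯) hgL hm hf' hdvd
  have hN' : D.emb ((Algebra.norm K₀⟮U⟯ f : K₀⟮U⟯) : F₀) =
      algebraMap K F c * (z : F) ^ m := by
    refine hn.trans ?_
    rw [hN]
    rfl
  obtain ⟨c₀, h₀, hc₀, hh₀, hfin⟩ := hdesc _ c z m hm hc (fun h => hz (Subtype.ext h)) hN'
  have hN1 : ((Algebra.norm K₀⟮U'⟯ f : K₀⟮U'⟯) : F₀) = algebraMap K₀ F₀ c₀ * h₀ ^ m := by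
    rw [norm_coe_congr hUU, hfin]
  have hc₀' : algebraMap K₀ F₀ c₀ ≠ 0 := by rwa [Ne, map_eq_zero]
  change (C 0).v ((Algebra.norm K₀⟮U⟯ f : K₀⟮U⟯) : F₀) = _ at v0
  change (C 1).v ((Algebra.norm K₀⟮U'⟯ f : K₀⟮U'⟯) : F₀) = _ at v1
  rw [hfin, Comp.v_mul _ hc₀' (pow_ne_zero _ hh₀), Comp.v_pow] at v0
  rw [hN1, Comp.v_mul _ hc₀' (pow_ne_zero _ hh₀), Comp.v_pow, ← hvc] at v1
  refine ⟨(C 0).v h₀ - (C 1).v h₀, ?_⟩
  linarith

end

end Fermat.Agent.RlG
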