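import Fermat.Agent.RlG.Obs1
import Fermat.Agent.RlG.ObsA

/-!
# The component obstruction
-/

set_option autoImplicit false
set_option linter.unusedSectionVars false
set_option linter.style.haveILetI false

open scoped MatrixGroups
open Module Fermat.Agent.KumG Fermat.Agent.Cov ModularCurve Fermat.Agent.ModPoly Fermat.Agent.GamH
  Polynomial IntermediateField Fermat.Agent.RedMod Fermat.Agent.Red AlgebraicCurve Fermat.Agent.RR
  Fermat.Agent.SSH Fermat.Agent.SemiSt Fermat.Agent.Nod Fermat.Agent.Curve Fermat.Agent.E2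

namespace Fermat.Agent.RlG

noncomputable section

attribute [local instance 10000] fastAlg

section Abs

variable {A₀ K₀ A Ω k : Type*} [CommRing A₀] [IsDomain A₀] [IsDiscreteValuationRing A₀] [Field K₀]
  [Algebra A₀ K₀] [IsFractionRing A₀ K₀] [CommRing A] [IsDomain A] [ValuationRing A]
  [Field Ω] [Algebra A Ω] [IsFractionRing A Ω] [Field k]
  [Algebra A k] [Algebra A₀ k] [Algebra K₀ Ω]
  {FM₀ Fq₀ : IntermediateField K₀ (LaurentSeries K₀)}
  {FM Fq : IntermediateField Ω (LaurentSeries Ω)}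
  {E : IntermediateField k (LaurentSeries k)} {ι : Type*} [Fintype ι] {y : ι → LaurentSeries ℤ}
  {q : ℕ} [hq : Fact q.Prime] [CharP k q]
  {S₀ : SSD A₀ FM₀ Fq₀ E y q} {S : SSD A FM Fq E y q} (X : SExt S₀ S)

/-- constants -/
theorem LR_const0 (a : A₀) : LR A₀ ((algebraMap K₀ Fq₀ (algebraMap A₀ K₀ a) : Fq₀) :
    LaurentSeries K₀) ((algebraMap k E (algebraMap A₀ k a) : E) : LaurentSeries k) := by
  refine (LR.const (K := K₀) (k := k) a).of_eq ?_ ?_
  · exact (SSD.coe_algebraMap (Fq := Fq₀) _).symm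
  · change _ = algebraMap k (LaurentSeries k) _
    rw [algebraMap_eq_C]

theorem base (j : Fin 2) : Base A₀ K₀ k (X.CC j) (q : A₀) where
  ne := X.q_ne
  red := SExt.redq
  hd := X.hd
  ϖ := by
    match j with
    | 0 => rfl
    | 1 => rfl
  mem a := by
    match j with
    | 0 => exact (LR_const0 (Fq₀ := Fq₀) (E := E) a).1
    | 1 =>
      change (S₀.w _ : LaurentSeries K₀) ∈ WL A₀ K₀ k
      rw [AlgEquiv.commutes]
      exact (LR_const0 (Fq₀ := Fq₀) (E := E) a).1
  r a := by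
    match j with
    | 0 => exact X.r0_eq (LR_const0 (Fq₀ := Fq₀) (E := E) a)
    | 1 =>
      refine X.r1_eq ?_
      rw [AlgEquiv.commutes]
      exact LR_const0 (Fq₀ := Fq₀) (E := E) a

theorem v_const (c : K₀) : (X.CC 0).v (algebraMap K₀ Fq₀ c) = (X.CC 1).v (algebraMap K₀ Fq₀ c) := by
  rw [X.v1_eq_w, AlgEquiv.commutes]

end Abs

section Main

variable {A₀ K₀ A K k : Type*} [CommRing A₀] [IsDomain A₀] [IsDiscreteValuationRing A₀] [Field K₀]
  [CharZero K₀] [Algebra ℚ K₀]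
  [Algebra A₀ K₀] [IsFractionRing A₀ K₀] [CommRing A] [IsDomain A] [ValuationRing A]
  [Field K] [IsAlgClosed K] [CharZero K] [Algebra ℚ K] [Algebra A K] [IsFractionRing A K]
  [Field k] [IsAlgClosed k] [Algebra A k] [Algebra A₀ k] [Algebra K₀ K]
  {q M : ℕ} [hq : Fact q.Prime] [NeZero M]
  {H : Subgroup (ZMod M)ˣ} [hH : Fact ((-1 : (ZMod M)ˣ) ∈ H)] [CharP k q] [PerfectRing k q]
  [Algebra.IsAlgebraic K₀ K] (s : Set2 A₀ K₀ A K k q M H)
  [FunField k (FH k M H)] [FunField K (FG (GH M H) K)] [FunField K (FG (Gq q M H) K)]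

include s in
theorem hs_reg {Q : Place k (FH k M H)} (hQ : 0 ≤ Q.ord s.S₀.jE) :
    0 ≤ Q.ord (Set2.hs k q M H) := by
  by_contra hcon
  push Not at hcon
  haveI := funField_FF (k := k) (M := M) s.hM
  have e1 : s.S₀.jE = inclusion (FF_le_FH (k := k) (N := M) (H := H)) (jF' k M) := by
    apply Subtype.ext
    rw [coe_incl_gen]
    exact Jc_one_one.symm
  have hs' : Set2.hs k q M H = inclusion (FF_le_FH (k := k) (N := M) (H := H)) (CarM.hs k q M) :=
    rfl
  rw [hs'] at hcon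
  obtain ⟨u, e, he, h⟩ := exists_restrict (inclusion (FF_le_FH (k := k) (N := M) (H := H))) Q
    (j := CarM.hs k q M) hcon.ne
  have hj0 : jF' k M ≠ 0 := Cusp.jF_ne_zero
  rw [e1, h _ hj0] at hQ
  rw [h _ (CarM.hs_ne (k := k) (q := q) (M := M))] at hcon
  have hu : 0 ≤ u.ord (jF' k M) := by
    by_contra h1
    push Not at h1
    have := mul_neg_of_pos_of_neg he h1
    omega
  have := CarM.hs_reg (k := k) (q := q) (M := M) u hu
  have := mul_nonneg he.le this
  omega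

theorem trans_jE : Transcendental k s.S₀.jE := transcendental_of (FH k M H) s.S₀.G.jk

include s in
theorem trans_hs : Transcendental k (Set2.hs k q M H) := by
  obtain ⟨Q, hQ⟩ := RR.exists_pole (trans_jE s)
  apply Curve.transcendental_of_ord_ne_zero Q
  rw [s.hs_cusp Q hQ]
  have h2 := hq.out.one_lt
  have h1 : 0 < ((q - 1 : ℕ) : ℤ) := by exact_mod_cast Nat.sub_pos_of_lt h2
  exact (mul_neg_of_pos_of_neg h1 hQ).ne

include s in
theorem finrank_hs : finrank k⟮Set2.hs k q M H⟯ (FH k M H) =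
    (q - 1) * Fintype.card (Fin (dedekindPsi M) × Fin H.index) := by
  have e1 : poleDiv k (Set2.hs k q M H) = (q - 1) • poleDiv k s.S₀.jE := by
    ext Q
    rw [Finsupp.smul_apply, poleDiv_apply, poleDiv_apply, nsmul_eq_mul]
    rcases le_or_gt 0 (Q.ord s.S₀.jE) with h | h
    · have := hs_reg s h
      rw [max_eq_right (by omega), max_eq_right (by omega), mul_zero]
    · rw [s.hs_cusp Q h]
      have h1 : (0 : ℤ) ≤ ((q - 1 : ℕ) : ℤ) := by positivity
      rw [max_eq_left (by nlinarith), max_eq_left (by omega)]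
      ring
  have h1 := congrArg Divisor.degree e1
  rw [map_nsmul, nsmul_eq_mul, degree_poleDiv (trans_hs s), degree_poleDiv (trans_jE s)] at h1
  have h2 := s.toSetting.sp.rkk
  have h3 : finrank k⟮s.S₀.jE⟯ (FH k M H) =
    Fintype.card (Fin (dedekindPsi M) × Fin H.index) := h2
  rw [h3] at h1
  exact_mod_cast h1

include s in
theorem finrank_UK' : finrank K⟮Set2.UK K q M H⟯ (FG (Gq q M H) K) =
    finrank k⟮Set2.hs k q M H⟯ (FH k M H) := by
  have h1 := finrank_UK s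
  have h2 := finrank_hs s
  have hq1 := hq.out.one_lt
  rw [h2]
  have h3 : ((((q - 1) * Fintype.card (Fin (dedekindPsi M) × Fin H.index) : ℕ)) : ℤ) =
      ((q : ℤ) - 1) * Fintype.card (Fin (dedekindPsi M) × Fin H.index) := by
    push_cast [hq1.le]
    ring
  rw [← h3] at h1
  exact_mod_cast h1

include s in
theorem funField0 : FunField K₀ (FG (Gq q M H) K₀) := by
  haveI := s.S₀.finq
  exact ⟨⟨jqModC K₀, s.S₀.hle s.S₀.G.jK⟩, transcendental_of (FG (Gq q M H) K₀) _, inferInstance⟩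

theorem trans_U : Transcendental K₀ s.U := by
  intro h
  have h1 : IsAlgebraic K (Set2.UK K q M H) := by
    obtain ⟨p, hp, hpU⟩ := h
    refine ⟨p.map (algebraMap K₀ K), (Polynomial.map_ne_zero_iff (algebraMap K₀ K).injective).2 hp,
      ?_⟩
    have := emb_aeval s.X.Dq (U := s.U) p
    rw [hpU, map_zero] at this
    rw [← s.emb_U]
    exact this.symm
  exact trans_UK s h1

/-- the modular unit for the second component -/
def U' : FG (Gq q M H) K₀ := s.S₀.w s.U

theorem adjoin_U' : K₀⟮U' s⟯ = K₀⟮s.U⟯ := by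
  have hq0 : algebraMap A₀ K₀ ((q : A₀) ^ 12) ≠ 0 := by
    rw [Ne, map_eq_zero_iff _ (IsFractionRing.injective A₀ K₀)]
    exact pow_ne_zero _ s.q_ne
  have e : U' s = algebraMap K₀ (FG (Gq q M H) K₀) (algebraMap A₀ K₀ ((q : A₀) ^ 12)) * s.U⁻¹ :=
    s.w_U
  apply le_antisymm
  · rw [adjoin_simple_le_iff, e]
    exact mul_mem (IntermediateField.algebraMap_mem _ _) (inv_mem (mem_adjoin_simple_self K₀ _))
  · rw [adjoin_simple_le_iff]
    have e2 : s.U = algebraMap K₀ (FG (Gq q M H) K₀) (algebraMap A₀ K₀ ((q : A₀) ^ 12)) *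
        (U' s)⁻¹ := by
      rw [e, mul_inv, inv_inv, mul_inv_cancel_left₀]
      rwa [Ne, map_eq_zero]
    rw [e2]
    exact mul_mem (IntermediateField.algebraMap_mem _ _) (inv_mem (mem_adjoin_simple_self K₀ _))

theorem r0_U : (s.X.CC 0).r s.U = Set2.hs k q M H := s.X.r0_eq s.LR_U

theorem v0_U : (s.X.CC 0).v s.U = 0 :=
  s.X.v0_zero s.LR_U (fun h => Set2.hs_ne (k := k) (q := q) (M := M) (H := H) (Subtype.ext h))

theorem r1_U' : (s.X.CC 1).r (U' s) = Set2.hs k q M H := by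
  refine s.X.r1_eq ?_
  rw [U', s.S₀.w_w]
  exact s.LR_U

theorem v1_U' : (s.X.CC 1).v (U' s) = 0 := by
  rw [s.X.v1_eq_w, U', s.S₀.w_w]
  exact v0_U s

include s in
theorem surj_CC (b : FH k M H) : ∃ x : FG (Gq q M H) K₀, ∀ j, x ∈ (s.X.CC j).W ∧
    (s.X.CC j).r x = b := by
  letI := algA A₀ (FG (Gq q M H) K₀)
  haveI := tower_algA A₀ (FG (Gq q M H) K₀)
  letI := algA A₀ (FH k M H)
  haveI := tower_algA A₀ (FH k M H)
  obtain ⟨e, he⟩ := SExt.sred_surj (S₀ := s.S₀) (S := s.toSetting.S) s.toSetting.sp (b, b)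
  refine ⟨e, fun j => ⟨(s.X.mem_WW_iff.1 e.2) j, ?_⟩⟩
  match j with
  | 0 => rw [← s.X.sred_fst e.2]; exact congrArg Prod.fst he
  | 1 => rw [← s.X.sred_snd e.2]; exact congrArg Prod.snd he

/-- **The component obstruction is bounded.** -/
theorem obs : ∃ C : ℕ, 0 < C ∧ ∀ (m : ℕ), m ≠ 0 → ∀ f : FG (Gq q M H) K₀, f ≠ 0 →
    (∀ v : Place K (FG (Gq q M H) K), (m : ℤ) ∣ v.ord (emb K₀ K (Gq q M H) f)) →
    (m : ℤ) ∣ C * ((s.X.CC 0).v f - (s.X.CC 1).v f) := by
  have hU : s.X.Dq.emb s.U = Set2.UK K q M H := s.emb_U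
  haveI := fd (K := k) (trans_hs s)
  haveI := funField0 s
  haveI := fd (K := K₀) (trans_U s)
  refine obs_abs s.X.Dq s.X.CC (base s.X) (v_const s.X) s.U (U' s) (Set2.hs k q M H)
    (trans_hs s) (v0_U s) (r0_U s) (v1_U' s) (r1_U' s) (adjoin_U' s) (trans_U s)
    (by rw [hU]; exact trans_UK s) (by rw [hU]; exact finrank_UK' s) (surj_CC s) ?_
  intro g c' h' m hm hc' hh' h
  obtain ⟨c, h₀, hc, hh, he, -⟩ := desc_pow s.hfix hm hc' hh' h
  exact ⟨c, h₀, hc, hh, he⟩

end Main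

end

end Fermat.Agent.RlG
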