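import Fermat.Agent.RlG.Tor
import Fermat.Agent.RlG.CntA
import Fermat.Agent.ImW.Tame
import Fermat.Agent.SSH.KumX
import Fermat.Agent.E2.Final

/-!
# Inertia invariants
-/

set_option autoImplicit false
set_option linter.unusedSectionVars false
set_option linter.style.haveILetI false

open scoped MatrixGroups
open Module Fermat.Agent.KumG Fermat.Agent.Cov ModularCurve Fermat.Agent.ModPoly Fermat.Agent.GamH
  Polynomial IntermediateField Fermat.Agent.RedMod Fermat.Agent.Red AlgebraicCurve Fermat.Agent.RR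
  Fermat.Agent.SSH Fermat.Agent.SemiSt Fermat.Agent.Nod Fermat.Agent.Curve Fermat.Agent.E2K
  Fermat.Agent.Flat Fermat.Agent.ThmC Fermat.Agent.E2

namespace Fermat.Agent.RlG

noncomputable section

local notation "Q̄" => AlgebraicClosure ℚ

attribute [local instance 10000] fastAlg

theorem end_mul_apply {V : Type*} [AddCommGroup V] (f g : AddMonoid.End V) (x : V) :
    (f * g) x = f (g x) := rfl

variable {A : ValuationSubring (AlgebraicClosure ℚ)} {q M : ℕ} [hq : Fact q.Prime] [NeZero M]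
  {H : Subgroup (ZMod M)ˣ} [hH : Fact ((-1 : (ZMod M)ˣ) ∈ H)] {m : ℕ} [NeZero m]

/-- the Galois action, bundled -/
def rhoE {Γ : Subgroup SL(2, ℤ)} [LvlG Γ] [RatG Γ] (ι : Q̄ →+* ℂ) (m : ℕ) [NeZero m] :
    (Q̄ ≃ₐ[ℚ] Q̄) →* AddMonoid.End (XL Γ m) where
  toFun σ := AddMonoidHom.mk' (rhoF ι m σ) (rhoF_add ι σ)
  map_one' := by
    ext ξ
    exact rhoF_one ι ξ
  map_mul' σ τ := by
    ext ξ
    exact rhoF_mul ι σ τ ξ

theorem rhoE_apply {Γ : Subgroup SL(2, ℤ)} [LvlG Γ] [RatG Γ] (ι : Q̄ →+* ℂ) (σ : Q̄ ≃ₐ[ℚ] Q̄)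
    (ξ : XL Γ m) : rhoE ι m σ ξ = rhoF ι m σ ξ := rfl

/-- inertia invariants -/
def VI (A : ValuationSubring (AlgebraicClosure ℚ)) (q M : ℕ) [hq : Fact q.Prime] [NeZero M]
    (H : Subgroup (ZMod M)ˣ) [hH : Fact ((-1 : (ZMod M)ˣ) ∈ H)] (m : ℕ) [NeZero m]
    (ι : Q̄ →+* ℂ) : AddSubgroup (XL (Gq q M H) m) where
  carrier := {ξ | ∀ σ ∈ A.inertiaSubgroupIn ℚ, rhoF ι m σ ξ = ξ}
  zero_mem' σ _ := map_zero (rhoE ι m σ)
  add_mem' := by
    intro a b ha hb σ hσ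
    rw [rhoF_add, ha σ hσ, hb σ hσ]
  neg_mem' := by
    intro a ha σ hσ
    have := map_neg (rhoE ι m σ) a
    rw [rhoE_apply, rhoE_apply, ha σ hσ] at this
    exact this

theorem tame_gen (hA : A.LiesOverPrime q) (hqM : ¬ q ∣ M) (hM3 : 3 ≤ M) (D : WData q M H)
    (ι : Q̄ →+* ℂ) (hm : ¬ q ∣ m) : ∃ σ₀ ∈ A.inertiaSubgroupIn ℚ,
      ∀ ξ : XL (Gq q M H) m, rhoF ι m σ₀ ξ = ξ → ξ ∈ VI A q M H m ι := by
  obtain ⟨σ₀, hσ₀, hgen⟩ := ImW.exists_gen_tame' (v := q) (A := A)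
    (f := (rhoE (Γ := Gq q M H) ι m : (Q̄ ≃ₐ[ℚ] Q̄) →* AddMonoid.End (XL (Gq q M H) m)))
    (by
      obtain ⟨L, hL, h⟩ := exists_level_rhoF (Γ := Gq q M H) (m := m) ι
      refine ⟨L, hL, fun σ hσ => ?_⟩
      ext ξ
      exact h σ hσ ξ)
    (by
      intro σ hσ
      refine ⟨m, hm, ?_⟩
      have h1 : ∀ ξ : XL (Gq q M H) m, rhoE ι m σ (rhoE ι m σ ξ - ξ) = rhoE ι m σ ξ - ξ := by
        intro ξ
        have h2 := rhoF_unipH hA hqM hM3 D ι hσ hσ hm ξ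
        rw [map_sub]
        change rhoF ι m σ (rhoF ι m σ ξ) - rhoF ι m σ ξ = rhoF ι m σ ξ - ξ
        rw [← sub_eq_zero]
        rw [← h2]
        abel
      have h3 : ∀ (k : ℕ) (ξ : XL (Gq q M H) m), (rhoE ι m σ ^ k) ξ =
          ξ + k • (rhoE ι m σ ξ - ξ) := by
        intro k
        induction k with
        | zero => intro ξ; rw [pow_zero, zero_nsmul, add_zero]; rfl
        | succ k ih =>
          intro ξ
          rw [pow_succ, end_mul_apply, ih, ← map_sub, h1, succ_nsmul]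
          abel
      ext ξ
      rw [h3]
      obtain ⟨Φ, hΦ⟩ := mkX_surjective (rhoE ι m σ ξ - ξ)
      rw [← hΦ, mkX_nsmul, add_zero]
      rfl) hA
  refine ⟨σ₀, hσ₀, fun ξ hξ σ hσ => ?_⟩
  obtain ⟨n, hn⟩ := hgen σ hσ
  have h1 : ∀ n : ℕ, ((rhoE ι m σ₀) ^ n) ξ = ξ := by
    intro n
    induction n with
    | zero => rfl
    | succ n ih =>
      rw [pow_succ, end_mul_apply, rhoE_apply, hξ, ih]
  have h2 := congrArg (fun f : AddMonoid.End (XL (Gq q M H) m) => f ξ) hn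
  exact h2.trans (h1 n)

theorem card_le_tame (hA : A.LiesOverPrime q) (hqM : ¬ q ∣ M) (hM3 : 3 ≤ M) (D : WData q M H)
    (ι : Q̄ →+* ℂ) (hm : ¬ q ∣ m)
    [FunField (IsLocalRing.ResidueField A) (FH (IsLocalRing.ResidueField A) M H)]
    [FunField Q̄ (FG (GH M H) Q̄)] [FunField Q̄ (FG (Gq q M H) Q̄)]
    (hN : 2 * rrGenus (IsLocalRing.ResidueField A) (FH (IsLocalRing.ResidueField A) M H) ≤
      rrGenus Q̄ (FG (Gq q M H) Q̄)) :
    Nat.card (XL (Gq q M H) m) ≤ m ^ (rrGenus Q̄ (FG (Gq q M H) Q̄) -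
      2 * rrGenus (IsLocalRing.ResidueField A) (FH (IsLocalRing.ResidueField A) M H)) *
        Nat.card (VI A q M H m ι) := by
  haveI : CharP (IsLocalRing.ResidueField A) q := RedMod.charP_residue hA
  haveI : IsAlgClosed (IsLocalRing.ResidueField A) := inferInstance
  haveI : PerfectRing (IsLocalRing.ResidueField A) q := inferInstance
  obtain ⟨σ₀, hσ₀, hgen⟩ := tame_gen hA hqM hM3 D ι hm
  obtain ⟨T, hT1, hT2, hT3⟩ := exists_T (qset hA hqM hM3 D ι) (m := m)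
    (natCast_residue_ne_zero hA hm) hN
  obtain ⟨R, hR, hR1⟩ := exists_decAut_inertia hσ₀
  have hsub : ∀ ξ : XL (Gq q M H) m, rhoF ι m σ₀ ξ - ξ ∈ T := by
    refine hT3 σ₀ R (fun x => ?_) hR1
    apply Subtype.ext
    rw [coe_actF, hR]
    rfl
  haveI : Finite (XL (Gq q M H) m) := finite_XL
  haveI : Finite T := hT1
  obtain ⟨-, h2, -⟩ := fib_card (X := (⊤ : AddSubgroup (XL (Gq q M H) m))) (Y := VI A q M H m ι)
    (Φ := fun x => (⟨_, hsub x⟩ : T)) (by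
      intro x x' h
      have h1 : rhoF ι m σ₀ (x : XL (Gq q M H) m) - x = rhoF ι m σ₀ (x' : XL (Gq q M H) m) - x' :=
        congrArg Subtype.val h
      apply hgen
      have h3 := map_sub (rhoE ι m σ₀) (x : XL (Gq q M H) m) x'
      rw [rhoE_apply, rhoE_apply, rhoE_apply] at h3
      rw [h3]
      rw [sub_eq_sub_iff_add_eq_add] at h1 ⊢
      rw [h1]
      abel)
  rw [AddSubgroup.card_top] at h2
  refine h2.trans (Nat.mul_le_mul_right _ ?_)
  rw [Nat.card_coe_set_eq]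
  exact hT2

end

end Fermat.Agent.RlG
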