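import Fermat.Agent.RlG.Fin
import Fermat.Agent.RlG.Tam
import Fermat.Agent.TL.Surj

/-!
# Realisation at the level `Γ₀(q M)`
-/

set_option autoImplicit false
set_option linter.unusedSectionVars false
set_option linter.style.haveILetI false

open scoped MatrixGroups
open Module Fermat.Agent.KumG Fermat.Agent.Cov ModularCurve Fermat.Agent.ModPoly Fermat.Agent.GamH
  Polynomial IntermediateField Fermat.Agent.RedMod Fermat.Agent.Red AlgebraicCurve Fermat.Agent.RR
  Fermat.Agent.SSH Fermat.Agent.SemiSt Fermat.Agent.Nod Fermat.Agent.Curve Fermat.Agent.E2K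
  Fermat.Agent.Flat Fermat.Agent.ThmC Fermat.Agent.E2

namespace Fermat.Agent.RlG

noncomputable section

local notation "Q̄" => AlgebraicClosure ℚ

attribute [local instance] ThmC.algRK ThmC.isFractionRing_RK
attribute [local instance 10000] fastAlg

theorem genus_FG {K : Type*} [Field K] [Algebra ℚ K] [IsAlgClosed K] [CharZero K]
    (ι : K →+* ℂ) {N : ℕ} [NeZero N] {H : Subgroup (ZMod N)ˣ} (hH : -1 ∈ H) (h : H.index = 1)
    [LvlG (GH N H)] [FunField K (FG (GH N H) K)] :
    (rrGenus K (FG (GH N H) K) : ℚ) = genusFormula N := by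
  haveI := funField_FF (k := K) (M := N) (by exact_mod_cast NeZero.ne N)
  have e0 : FG (GH N H) K = FF K N := FG_eq_FF ι hH h
  have e1 : rrGenus K (FG (GH N H) K) = rrGenus K (FF K N) := rrGenus_congr e0
  rw [e1]
  exact rrGenus_K (K := K) (N := N) ι

variable {A : ValuationSubring (AlgebraicClosure ℚ)} {q M : ℕ} [hq : Fact q.Prime] [NeZero M]
  {H : Subgroup (ZMod M)ˣ} [hH : Fact ((-1 : (ZMod M)ˣ) ∈ H)]

/-- **Realisation** (Part A of the toric step). -/
theorem realize (hA : A.LiesOverPrime q) (hqM : ¬ q ∣ M) (hM3 : 3 ≤ M) (D : WData q M H)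
    (hidx : H.index = 1) (ι : Q̄ →+* ℂ) {r : ℕ} (hr : r.Prime) (hr12 : r % 12 = 11) (hrM : r ∣ M)
    {p : ℕ} [hpp : Fact p.Prime] (hpq : ¬ q ∣ p) :
    haveI := isDVR hA
    haveI : CharP (IsLocalRing.ResidueField A) q := RedMod.charP_residue hA
    haveI := CarE.algebraic_K0 (A := A)
    TyC.Realize (qset2 hA hqM hM3 D ι) p := by
  haveI := isDVR hA
  haveI : CharP (IsLocalRing.ResidueField A) q := RedMod.charP_residue hA
  haveI := CarE.algebraic_K0 (A := A)
  haveI : IsAlgClosed (IsLocalRing.ResidueField A) := inferInstance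
  haveI : PerfectRing (IsLocalRing.ResidueField A) q := inferInstance
  haveI : NeZero p := ⟨hpp.out.ne_zero⟩
  set s := qset2 hA hqM hM3 D ι with hs
  haveI := s.toSetting.ffE
  haveI := s.toSetting.ffM
  haveI := s.toSetting.ffq
  have hU := unif_qset2 hA hqM hM3 D ι hr hr12 hrM
  have hidx' : (HM (dvd_mul_left M q) H).index = 1 := (index_HM _ H).trans hidx
  have hHM : -1 ∈ HM (dvd_mul_left M q) H := neg_mem_HM _ H hH.out
  have g1 := genus_FG ι (N := M) hH.out hidx
  have g2 := genus_FG ι (N := q * M) hHM hidx'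
  have g0 := s.toSetting.gen
  have hN : 2 * rrGenus (IsLocalRing.ResidueField A) (FH (IsLocalRing.ResidueField A) M H) ≤
      rrGenus Q̄ (FG (Gq q M H) Q̄) := by
    have h1 := genusFormula_ge (M := M) hq.out hqM hr hr12 hrM
    rw [← g1, ← g2] at h1
    rw [g0]
    exact_mod_cast h1
  refine realize_of s hU (natCast_residue_ne_zero hA hpq)
    (TL.surjSpz hA hqM hpq hM3 D ι) hN (finrank_LZ_GH ι hHM hidx')
    (finrank_LZ_GH ι hH.out hidx) fun n => ?_
  have hqn : ¬ q ∣ p ^ n := fun h => hpq (hq.out.dvd_of_dvd_pow h)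
  refine (card_le_tame hA hqM hM3 D ι hqn hN).trans (Nat.mul_le_mul_left _ ?_)
  haveI : Finite (XL (Gq q M H) (p ^ n)) := finite_XL
  refine Nat.card_le_card_of_injective (fun x : VI A q M H (p ^ n) ι =>
    (⟨x.1, exists_rep_K0 (A := A) ι x.2⟩ : VK s (p ^ n))) fun x y hxy => ?_
  exact Subtype.ext (congrArg (fun z : VK s (p ^ n) => (z : XL (Gq q M H) (p ^ n))) hxy)

end

end Fermat.Agent.RlG
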