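import Fermat.Agent.RlG.TwC
import Fermat.Agent.RlG.GenN
import Fermat.Agent.SSH.Setting
import Fermat.Agent.E2K.Cls

/-!
# The toric bound
-/

set_option autoImplicit false
set_option linter.unusedSectionVars false
set_option linter.style.haveILetI false

open scoped MatrixGroups
open Module Fermat.Agent.KumG Fermat.Agent.Cov ModularCurve Fermat.Agent.ModPoly Fermat.Agent.GamH
  Polynomial IntermediateField Fermat.Agent.RedMod Fermat.Agent.Red AlgebraicCurve Fermat.Agent.RR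
  Fermat.Agent.SSH Fermat.Agent.SemiSt Fermat.Agent.Nod Fermat.Agent.Curve Fermat.Agent.E2K

namespace Fermat.Agent.RlG

noncomputable section

section SSDs

variable {A K k : Type*} [CommRing A] [IsDomain A] [ValuationRing A]
  [Field K] [IsAlgClosed K] [CharZero K] [Algebra A K] [IsFractionRing A K]
  [Field k] [IsAlgClosed k] [Algebra A k]
  {FM Fq : IntermediateField K (LaurentSeries K)} {E : IntermediateField k (LaurentSeries k)}
  {ι : Type*} [Fintype ι] {y : ι → LaurentSeries ℤ} {q : ℕ} [hq : Fact q.Prime]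
  {S : SSD A FM Fq E y q} [CharP k q] [PerfectRing k q]
  [FunField k E] [FunField K FM] [FunField K Fq]
  (Γ : S.Gal) (P : S.Pol) (hS : SP S.G) (hgen : rrGenus k E = rrGenus K FM)
  (hrank : ∀ a c : A, algebraMap A k a = 0 → c ≠ 0 → ∃ n : ℕ, c ∣ a ^ n)
  [Algebra A Fq] [IsScalarTower A K Fq] [Algebra A E] [IsScalarTower A k E]

include P hS hgen hrank in
theorem exists_isTw {R : RedAut A K k} (hR : R.σb = 1) {m : ℕ} (hm0 : m ≠ 0) {f : Fq}
    (hf : f ≠ 0) (hD : ∀ v : Place K Fq, (m : ℤ) ∣ v.ord f) (b : A)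
    (hb : (algebraMap A k b) ^ (q * q) ≠ algebraMap A k b) :
    ∃ g : Fq, g ≠ 0 ∧ IsTw (S.ng b) S.G.hk S.fd.nodes m
      (actF Γ.cq R.σ (f * g ^ m) / (f * g ^ m)) := by
  haveI := S.nonempty_ι'
  have H := SSD.nodMod_ng P hS hgen b hb
  obtain ⟨g, hg, hW, h1, h2⟩ := SSD.exists_scale_kummer (S := S) hrank hm0 hf
  have hΘ := SSD.nodAut_isInertial Γ b R hR (SSD.fix_of_eq_one hR)
  obtain ⟨D, ζ, T⟩ := NodAut.IsInertial.exists_tw (S.ng_hspan b) H hΘ hm0 (f := f * g ^ m) hW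
    h1 h2 (by
      intro v
      rw [v.ord_mul hf (pow_ne_zero _ hg), ord_pow]
      exact dvd_add (hD v) (dvd_mul_right _ _))
  exact ⟨g, hg, D, 1, ζ, T⟩

end SSDs

section Set1

variable {A K k : Type*} [CommRing A] [IsDomain A] [ValuationRing A]
  [Field K] [IsAlgClosed K] [CharZero K] [Algebra ℚ K] [Algebra A K] [IsFractionRing A K]
  [Field k] [IsAlgClosed k] [Algebra A k] {q M : ℕ} [hq : Fact q.Prime] [NeZero M]
  {H : Subgroup (ZMod M)ˣ} [hH : Fact ((-1 : (ZMod M)ˣ) ∈ H)] [CharP k q] [PerfectRing k q]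
  (s : Setting A K k q M H)
  [FunField k (FH k M H)] [FunField K (FG (GH M H) K)] [FunField K (FG (Gq q M H) K)]

theorem exists_T {m : ℕ} [NeZero m] (hm : (m : k) ≠ 0)
    (hN : 2 * rrGenus k (FH k M H) ≤ rrGenus K (FG (Gq q M H) K)) :
    ∃ T : Set (XL (Gq q M H) m), T.Finite ∧
      T.ncard ≤ m ^ (rrGenus K (FG (Gq q M H) K) - 2 * rrGenus k (FH k M H)) ∧
      ∀ (σ : K ≃ₐ[ℚ] K) (R : RedAut A K k), (∀ x : FG (Gq q M H) K,
        actF s.gal.cq R.σ x = galK σ x) → R.σb = 1 →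
        ∀ ξ : XL (Gq q M H) m, rhoF s.ι m σ ξ - ξ ∈ T := by
  classical
  letI := algA A (FG (Gq q M H) K)
  haveI := tower_algA A (FG (Gq q M H) K)
  letI := algA A (FH k M H)
  haveI := tower_algA A (FH k M H)
  haveI := s.S.nonempty_ι'
  have hq1 := hq.out.one_lt
  obtain ⟨b', hb'⟩ := exists_pow_ne k (n := q * q) (by nlinarith)
  obtain ⟨b, rfl⟩ := s.hk b'
  have HN := SSD.nodMod_ng s.pol s.sp s.gen b hb'
  have hg := genus_nod (s.S.ng_hspan b) HN
  have hcard : Nat.card (Nd (s.S.ng b) s.S.G.hk s.S.fd.nodes) - 1 =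
      rrGenus K (FG (Gq q M H) K) - 2 * rrGenus k (FH k M H) := by omega
  haveI : Nonempty (Nd (s.S.ng b) s.S.G.hk s.S.fd.nodes) := by
    by_contra h
    rw [not_nonempty_iff] at h
    rw [Nat.card_of_isEmpty] at hg
    omega
  let T : Set (XL (Gq q M H) m) := {ξ | ∃ f : FG (Gq q M H) K, HasCls s.ι m f ξ ∧
    IsTw (s.S.ng b) s.S.G.hk s.S.fd.nodes m f}
  choose rep hrep1 hrep2 using fun x : T => x.2
  obtain ⟨h1, h2, -⟩ := count_aux (s.S.ng_hspan b) HN s.hA s.hrank hm (rep := rep) hrep2 (by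
    rintro x y ⟨z, hz⟩
    have hz0 : z ≠ 0 := by
      rintro rfl
      rw [zero_pow (NeZero.ne m)] at hz
      exact div_ne_zero (hrep1 y).ne_zero (hrep1 x).ne_zero hz.symm
    have h3 := (hrep1 x).mul_pow hz0
    rw [hz, mul_div_cancel₀ _ (hrep1 x).ne_zero] at h3
    exact Subtype.ext (h3.unique (hrep1 y)))
  refine ⟨T, Set.toFinite T, ?_, fun σ R hσ hR ξ => ?_⟩
  · rw [← hcard, ← Nat.card_coe_set_eq]
    exact h2
  · obtain ⟨x, -, -, hx⟩ := exists_good (K := K) s.ι ξ 1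
    obtain ⟨g, hg0, hT⟩ := exists_isTw s.gal s.pol s.sp s.gen s.hrank hR (NeZero.ne m)
      hx.ne_zero hx.kd.2 b hb'
    refine ⟨_, ?_, hT⟩
    have h3 := hx.mul_pow hg0
    have h4 := h3.gal σ
    rw [hσ, div_eq_mul_inv]
    exact h4.div h3

end Set1

end

end Fermat.Agent.RlG
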