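import Fermat.Agent.RlG.CntA
import Fermat.Agent.RlG.Tor
import Fermat.Agent.RlG.NdK

/-!
# Reductions of the classes
-/

set_option autoImplicit false
set_option linter.unusedSectionVars false
set_option linter.style.haveILetI false

open scoped MatrixGroups
open Module Fermat.Agent.KumG Fermat.Agent.Cov ModularCurve Fermat.Agent.ModPoly Fermat.Agent.GamH
  Polynomial IntermediateField Fermat.Agent.RedMod Fermat.Agent.Red AlgebraicCurve Fermat.Agent.RR
  Fermat.Agent.SSH Fermat.Agent.SemiSt Fermat.Agent.Nod Fermat.Agent.Curve Fermat.Agent.E2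
  Fermat.Agent.E2K

namespace Fermat.Agent.RlG

noncomputable section

section Spz

variable {A K k : Type*} [CommRing A] [IsDomain A] [ValuationRing A]
  [Field K] [IsAlgClosed K] [CharZero K] [Algebra ℚ K] [Algebra A K] [IsFractionRing A K]
  [Field k] [IsAlgClosed k] [Algebra A k] {q M : ℕ} [hq : Fact q.Prime] [NeZero M]
  {H : Subgroup (ZMod M)ˣ} [hH : Fact ((-1 : (ZMod M)ˣ) ∈ H)] [CharP k q] [PerfectRing k q]
  (s' : Setting A K k q M H) {m : ℕ} [NeZero m]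

theorem spz_unique {a a' : FG (GH M H) K} {ω : XL (GH M H) m} (h : HasCls s'.ι m a ω)
    (h' : HasCls s'.ι m a' ω) {α α' : FH k M H} (hα : α ≠ 0) (hα' : α' ≠ 0)
    (hr : LR A (a : LaurentSeries K) (α : LaurentSeries k))
    (hr' : LR A (a' : LaurentSeries K) (α' : LaurentSeries k)) :
    ∃ δ : FH k M H, δ ≠ 0 ∧ α' = α * δ ^ m := by
  obtain ⟨z, hz0, hz⟩ := h.exists_pow h'
  have n : (α : LaurentSeries k) ≠ 0 := fun h => hα (Subtype.ext h)
  have n' : (α' : LaurentSeries k) ≠ 0 := fun h => hα' (Subtype.ext h)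
  have h1 := hr'.mul (hr.inv n)
  have e1 : (a' : LaurentSeries K) * (a : LaurentSeries K)⁻¹ = ((z ^ m : FG (GH M H) K) :
      LaurentSeries K) := by
    have h2 : a' * a⁻¹ = z ^ m := by
      rw [hz, mul_comm a, mul_inv_cancel_right₀ h.ne_zero]
    have h3 := congrArg (fun x : FG (GH M H) K => (x : LaurentSeries K)) h2
    exact h3
  rw [e1] at h1
  have hU : IsU A K k (z : LaurentSeries K) := by
    refine SSD.isU_of_pow (S := s'.S) (NeZero.ne m) ?_
    exact h1.isU (mul_ne_zero n' (inv_ne_zero n))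
  obtain ⟨hz1, hz2⟩ := hU
  have hzr : LR A (z : LaurentSeries K) (πL A K k ⟨z, hz1⟩) := LR.of_mem hz1
  have hzE : πL A K k ⟨z, hz1⟩ ∈ FH k M H := s'.S.G.πL_mem _
  have e2 : α' * α⁻¹ = (⟨_, hzE⟩ : FH k M H) ^ m := by
    apply Subtype.ext
    exact h1.unique (hzr.pow m)
  refine ⟨⟨_, hzE⟩, fun h => hz2 (congrArg Subtype.val h), ?_⟩
  rw [← e2, mul_comm α' α⁻¹, mul_inv_cancel_left₀ hα]

end Spz

section Cnt

variable {A₀ K₀ A K k : Type*} [CommRing A₀] [IsDomain A₀] [IsDiscreteValuationRing A₀] [Field K₀]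
  [CharZero K₀] [Algebra ℚ K₀]
  [Algebra A₀ K₀] [IsFractionRing A₀ K₀] [CommRing A] [IsDomain A] [ValuationRing A]
  [Field K] [IsAlgClosed K] [CharZero K] [Algebra ℚ K] [Algebra A K] [IsFractionRing A K]
  [Field k] [IsAlgClosed k] [Algebra A k] [Algebra A₀ k] [Algebra K₀ K]
  {q M : ℕ} [hq : Fact q.Prime] [NeZero M]
  {H : Subgroup (ZMod M)ˣ} [hH : Fact ((-1 : (ZMod M)ˣ) ∈ H)] [CharP k q] [PerfectRing k q]
  [Algebra.IsAlgebraic K₀ K] (s : Set2 A₀ K₀ A K k q M H) {m : ℕ} [NeZero m]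

theorem surj_count (hU : s.Unif) (hS : SurjSpz s.toSetting m) :
    Nat.card (YK s m) ≤ Nat.card (XL (GH M H) m) ^ 2 * Nat.card (ZK s m) ∧
    (Nat.card (XL (GH M H) m) ^ 2 * Nat.card (ZK s m) ≤ Nat.card (YK s m) →
      ∀ α : Fin 2 → FH k M H, (∀ j, α j ≠ 0) →
        (∀ j (Q : Place k (FH k M H)), (m : ℤ) ∣ Q.ord (α j)) →
        ∃ g : FG (Gq q M H) K₀, g ≠ 0 ∧
          (∀ v : Place K (FG (Gq q M H) K), (m : ℤ) ∣ v.ord (emb K₀ K (Gq q M H) g)) ∧
          (∀ j, (s.X.CC j).v g = 0) ∧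
          ∃ β : Fin 2 → FH k M H, ∀ j, β j ≠ 0 ∧ (s.X.CC j).r g = α j * β j ^ m) := by
  classical
  haveI : Finite (XL (GH M H) m) := finite_XL
  haveI : Finite (XL (Gq q M H) m) := finite_XL
  choose f hf hv using fun x : YK s m => x.2
  have hf0 : ∀ x, f x ≠ 0 := fun x => ne_of_cls s (hf x)
  have hne : ∀ x j, (s.X.CC j).r (f x) ≠ 0 := fun x j =>
    (Car.Comp.r_ne_zero_iff (hf0 x)).2 (hv x j)
  have hd : ∀ x j (Q : Place k (FH k M H)), (m : ℤ) ∣ Q.ord ((s.X.CC j).r (f x)) := fun x j Q =>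
    s.slope hU (hf0 x) (hv x) (NeZero.ne m) (hf x).kd.2 j Q
  choose ω a α' β h1 h2 h3 h4 using fun (x : YK s m) (j : Fin 2) => hS _ (hne x j) (hd x j)
  have hα' : ∀ x j, α' x j ≠ 0 := by
    intro x j h
    apply hne x j
    rw [h4, h, zero_mul]
  obtain ⟨-, c2, c3⟩ := fib_card (X := YK s m) (Y := ZK s m) (Φ := fun x => ω x) (by
    intro x x' hxx
    have hj : ∀ j, ω x j = ω x' j := fun j => congrFun hxx j
    refine ⟨f x * (f x')⁻¹, ?_, fun j => ?_, ?_⟩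
    · rw [map_mul, map_inv₀]
      exact (hf x).div (hf x')
    · rw [Car.Comp.v_mul _ (hf0 x) (inv_ne_zero (hf0 x')), Car.Comp.v_inv, hv, hv]
      norm_num
    · have key : ∀ j, ∃ γ : FH k M H, γ ≠ 0 ∧ (s.X.CC j).r (f x * (f x')⁻¹) = γ ^ m := by
        intro j
        have h5 : HasCls s.ι m (a x j) (ω x' j) := by rw [← hj j]; exact h1 x j
        obtain ⟨δ, hδ0, hδ⟩ := spz_unique s.toSetting (h1 x' j) h5 (hα' x' j) (hα' x j)
          (h2 x' j) (h2 x j)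
        refine ⟨δ * β x j * (β x' j)⁻¹, mul_ne_zero (mul_ne_zero hδ0 (h3 x j))
          (inv_ne_zero (h3 x' j)), ?_⟩
        rw [Car.Comp.r_mul (Car.Comp.mem_of_v (hv x j).ge) (Car.Comp.mem_of_v (by
          rw [Car.Comp.v_inv, hv]; norm_num)), Car.Comp.r_inv (hv x' j), h4 x j, h4 x' j, hδ,
          mul_pow, mul_pow, inv_pow]
        have n1 := hα' x' j
        have n2 := h3 x' j
        field_simp
      choose γ hγ using key
      exact ⟨γ, hγ⟩)
  have hcard : Nat.card (Fin 2 → XL (GH M H) m) = Nat.card (XL (GH M H) m) ^ 2 := by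
    rw [Nat.card_fun, Nat.card_eq_fintype_card (α := Fin 2), Fintype.card_fin]
  rw [hcard] at c2 c3
  refine ⟨c2, fun hle αα hα0 hαd => ?_⟩
  have hsur := c3 hle
  choose ω' a' α'' β' g1 g2 g3 g4 using fun (j : Fin 2) => hS _ (hα0 j) (hαd j)
  have hα'' : ∀ j, α'' j ≠ 0 := by
    intro j h
    apply hα0 j
    rw [g4, h, zero_mul]
  obtain ⟨x, hx⟩ := hsur ω'
  have hx' : ∀ j, ω x j = ω' j := fun j => congrFun hx j
  refine ⟨f x, hf0 x, (hf x).kd.2, hv x, ?_⟩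
  have key : ∀ j, ∃ δ : FH k M H, δ ≠ 0 ∧ (s.X.CC j).r (f x) = αα j * δ ^ m := by
    intro j
    have h5 : HasCls s.ι m (a x j) (ω' j) := by rw [← hx' j]; exact h1 x j
    obtain ⟨δ, hδ0, hδ⟩ := spz_unique s.toSetting (g1 j) h5 (hα'' j) (hα' x j) (g2 j) (h2 x j)
    refine ⟨δ * β x j * (β' j)⁻¹, mul_ne_zero (mul_ne_zero hδ0 (h3 x j))
      (inv_ne_zero (g3 j)), ?_⟩
    rw [h4 x j, g4 j, hδ, mul_pow, mul_pow, inv_pow]
    have n2 := g3 j
    field_simp
  choose δ hδ using key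
  exact ⟨δ, hδ⟩

end Cnt

end

end Fermat.Agent.RlG
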