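import Fermat.Agent.Nod.Kummer

/-!
# Counting twisted Kummer classes
-/

set_option autoImplicit false
set_option linter.unusedSectionVars false
set_option linter.style.haveILetI false

open AlgebraicCurve Fermat.Agent.Curve Fermat.Agent.RR Fermat.Agent.Red Module Polynomial
  IntermediateField

namespace Fermat.Agent.RlG

open Fermat.Agent.Nod

variable {A K F k E₁ E₂ : Type*} [CommRing A] [IsDomain A] [ValuationRing A]
  [Field K] [Algebra A K] [IsFractionRing A K] [Field F] [Algebra K F] [Algebra A F]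
  [IsScalarTower A K F] [Field k] [Algebra A k] [Field E₁] [Field E₂] [Algebra k E₁]
  [Algebra k E₂] [Algebra A E₁] [Algebra A E₂] [IsScalarTower A k E₁] [IsScalarTower A k E₂]
  [IsAlgClosed K] [IsAlgClosed k] [CharZero K] [FunField K F] [FunField k E₁] [FunField k E₂]

variable {ι₀ : Type*} [Fintype ι₀] [Nonempty ι₀] {G : GaussData A K F k (E₁ × E₂) ι₀}
  {hk : Function.Surjective (algebraMap A k)}
  {ι : Type*} [Finite ι] {𝒩 : Nodes k E₁ E₂ ι}

theorem tw_scale {m : ℕ} (hm : m ≠ 0) {f : F} {D : Divisor K F} {γ : E₁ × E₂}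
    {ζ : Nd G hk 𝒩 → k} (T : TwData G hk 𝒩 m f D γ ζ) {c : k} (hc : c ^ m = 1) :
    TwData G hk 𝒩 m f D (c • γ.1, γ.2) (fun j => c⁻¹ * ζ j) := by
  have hc0 : c ≠ 0 := by
    rintro rfl
    rw [zero_pow hm] at hc
    exact zero_ne_one hc
  have hγ'1 : (c • γ.1, γ.2).1 ≠ (0 : E₁) := smul_ne_zero hc0 T.h1
  refine ⟨T.hf, ?_, T.hD, hγ'1, T.h2, fun j => ?_, fun a b x hx hxL j => ?_⟩
  · rw [T.hπ]
    apply Prod.ext
    · change γ.1 ^ m = (c • γ.1) ^ m
      rw [_root_.smul_pow, hc, one_smul]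
    · rfl
  · rw [mul_pow, inv_pow, hc, inv_one, one_mul]
    exact T.root j
  · obtain ⟨g1, g2, g3⟩ := T.tw a b x hx hxL j
    have e1 : (pinv (c • γ.1, γ.2) * G.π ⟨x, hx⟩).1 = c⁻¹ • (pinv γ * G.π ⟨x, hx⟩).1 := by
      change (c • γ.1)⁻¹ * (G.π ⟨x, hx⟩).1 = c⁻¹ • (γ.1⁻¹ * (G.π ⟨x, hx⟩).1)
      rw [smul_inv₀, smul_mul_assoc]
    have e2 : (pinv (c • γ.1, γ.2) * G.π ⟨x, hx⟩).2 = (pinv γ * G.π ⟨x, hx⟩).2 := rfl
    refine ⟨by rw [e1]; exact g1.smul _, by rw [e2]; exact g2, ?_⟩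
    rw [e1, e2, val_smul _ g1, g3, mul_assoc]

variable (G hk 𝒩) in
/-- there is a glueing cocycle -/
def IsTw (m : ℕ) (f : F) : Prop := ∃ D γ ζ, TwData G hk 𝒩 m f D γ ζ

section Count

variable (hspan : ∀ x : F, ∃ q : K[X], q ≠ 0 ∧ ∃ P : ι₀ → K[X], aeval G.t q * x = G.comb P)
  (H : NodMod G hk hspan 𝒩)
  (hA : ∃ t : A, t ≠ 0 ∧ ¬ IsUnit t)
  (hrank : ∀ a c : A, algebraMap A k a = 0 → c ≠ 0 → ∃ n : ℕ, c ∣ a ^ n)
  {m : ℕ} (hm : (m : k) ≠ 0) {X : Type*} {rep : X → F}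
  (hrep : ∀ x, IsTw G hk 𝒩 m (rep x))
  (hinj : ∀ x y, (∃ z, z ^ m = rep y / rep x) → x = y)

include H hA hrank hm hrep hinj in
theorem count_aux [Nonempty (Nd G hk 𝒩)] :
    Finite X ∧ Nat.card X ≤ m ^ (Nat.card (Nd G hk 𝒩) - 1) ∧
    (m ^ (Nat.card (Nd G hk 𝒩) - 1) ≤ Nat.card X → ∀ ρ : Nd G hk 𝒩 → k, (∀ j, ρ j ^ m = 1) →
      ∃ x D γ, TwData G hk 𝒩 m (rep x) D γ ρ) := by
  classical
  have hm0 : m ≠ 0 := by rintro rfl; simp at hm
  haveI : NeZero m := ⟨hm0⟩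
  obtain ⟨j₀⟩ := ‹Nonempty (Nd G hk 𝒩)›
  haveI : Fintype (Nd G hk 𝒩) := Fintype.ofFinite _
  choose D γ ζ T using hrep
  have hz : ∀ x j, ζ x j ≠ 0 := fun x j => (T x).zeta_ne_zero hm0 j
  let Φ : X → ({j : Nd G hk 𝒩 // j ≠ j₀} → rootsOfUnity m k) := fun x j =>
    rootsOfUnity.mkOfPowEq (ζ x j / ζ x j₀) (by rw [div_pow, (T x).root, (T x).root, div_one])
  have hΦv : ∀ x j, ((Φ x j : kˣ) : k) = ζ x j / ζ x j₀ := fun x j =>
    rootsOfUnity.coe_mkOfPowEq _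
  have hΦ : Function.Injective Φ := by
    intro x y hxy
    apply hinj
    have h := TwData.mul hspan H hm0 (T y) (TwData.inv hspan H hm0 (T x))
    rw [← div_eq_mul_inv] at h
    refine TwData.rigid hspan H hA hrank hm h (ζ y j₀ / ζ x j₀)
      (by rw [div_pow, (T x).root, (T y).root, div_one]) fun j => ?_
    rw [Pi.mul_apply, Pi.inv_apply, ← div_eq_mul_inv]
    by_cases hj : j = j₀
    · rw [hj]
    · have h1 := congrArg (fun u : rootsOfUnity m k => ((u : kˣ) : k)) (congrFun hxy ⟨j, hj⟩)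
      simp only [hΦv] at h1
      rw [div_eq_div_iff (hz x j₀) (hz y j₀)] at h1
      rw [div_eq_div_iff (hz x j) (hz x j₀)]
      linear_combination -h1
  haveI : Finite (rootsOfUnity m k) := inferInstance
  haveI : Finite {j : Nd G hk 𝒩 // j ≠ j₀} := Subtype.finite
  haveI : Finite ({j : Nd G hk 𝒩 // j ≠ j₀} → rootsOfUnity m k) := Pi.finite
  haveI : Finite X := Finite.of_injective Φ hΦ
  have hcT : Nat.card ({j : Nd G hk 𝒩 // j ≠ j₀} → rootsOfUnity m k) ≤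
      m ^ (Nat.card (Nd G hk 𝒩) - 1) := by
    rw [Nat.card_fun]
    have e : Nat.card {j : Nd G hk 𝒩 // j ≠ j₀} = Nat.card (Nd G hk 𝒩) - 1 := by
      rw [Nat.card_eq_fintype_card, Nat.card_eq_fintype_card, Fintype.card_subtype_compl,
        Fintype.card_subtype_eq]
    rw [e]
    refine Nat.pow_le_pow_left ?_ _
    exact card_rootsOfUnity k m
  refine ⟨inferInstance, ?_, fun hle ρ hρ => ?_⟩
  · exact (Nat.card_le_card_of_injective Φ hΦ).trans hcT
  · have hbij : Function.Bijective Φ := by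
      rw [Nat.bijective_iff_injective_and_card]
      exact ⟨hΦ, le_antisymm (Nat.card_le_card_of_injective Φ hΦ) (hcT.trans hle)⟩
    have hρ0 : ∀ j, ρ j ≠ 0 := by
      intro j h
      have := hρ j
      rw [h, zero_pow hm0] at this
      exact zero_ne_one this
    obtain ⟨x, hx⟩ := hbij.2 fun j => rootsOfUnity.mkOfPowEq (ρ j / ρ j₀)
      (by rw [div_pow, hρ, hρ, div_one])
    have hc : (ζ x j₀ / ρ j₀) ^ m = 1 := by rw [div_pow, (T x).root, hρ, div_one]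
    refine ⟨x, D x, ((ζ x j₀ / ρ j₀) • (γ x).1, (γ x).2), ?_⟩
    have h := tw_scale hm0 (T x) hc
    have e : (fun j => (ζ x j₀ / ρ j₀)⁻¹ * ζ x j) = ρ := by
      funext j
      rw [inv_div]
      by_cases hj : j = j₀
      · rw [hj, div_mul_cancel₀ _ (hz x j₀)]
      · have h1 := congrArg (fun u : rootsOfUnity m k => ((u : kˣ) : k)) (congrFun hx ⟨j, hj⟩)
        simp only [hΦv, rootsOfUnity.coe_mkOfPowEq] at h1
        rw [div_eq_div_iff (hz x j₀) (hρ0 j₀)] at h1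
        rw [div_mul_eq_mul_div, div_eq_iff (hz x j₀)]
        linear_combination h1
    rw [e] at h
    exact h

end Count

end Fermat.Agent.RlG
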